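import Fermat.Agent.Tate.T6.Defs
import Fermat.Agent.Tate.Bridge
import Fermat.Agent.S52.H5_UnipDecomp

set_option autoImplicit false

/-!
# Tate T6, assembly (helper1)

`Stmt_LOC → Stmt_LIN → Stmt_T2 → Stmt_T6`: the Tate module of a semistable curve is strictly
ordinary at an odd prime `p` of bad reduction.

For a place `P` over `p`, `Stmt_LOC` gives the component homomorphism `c` on `E(Q̄)`, `Stmt_LIN`
the line `L = {v | ∀ k, c (lev k v) = 0} = ℤ_p b₀`.  `σ ∈ D_P` acts on `c` by a sign `z`, so `L` is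
stable, `(ρ σ - z) V ⊆ L`, `ρ σ = x` on `L`, `det ρ σ = x z`; `Stmt_T2` gives `x z ≡ a`, hence
`x - a z = z (x z - a)`.
-/

open WeierstrassCurve WeierstrassCurve.Affine Polynomial

namespace Fermat.Agent.Tate.T6.H01

open Fermat.Agent.Tate Fermat.Agent.S52.H5
open Fermat.Agent.Lib.EllFinite.H4 (IntCoeff)

section Det

variable {R : Type*} [CommRing R] {V : Type*} [AddCommGroup V] [Module R V]

/-- Determinant of an endomorphism which is upper triangular in a basis of a rank two module. -/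
theorem det_of_triangular (b : Module.Basis (Fin 2) R V) (f : Module.End R V) (x z t : R)
    (h0 : f (b 0) = x • b 0) (h1 : f (b 1) = z • b 1 + t • b 0) : LinearMap.det f = x * z := by
  rw [← LinearMap.det_toMatrix b, Matrix.det_fin_two]
  simp only [LinearMap.toMatrix_apply, h0, h1, map_add, map_smul, Module.Basis.repr_self,
    Finsupp.coe_add, Finsupp.coe_smul, Pi.add_apply, Pi.smul_apply, smul_eq_mul,
    Finsupp.single_eq_same]
  rw [Finsupp.single_eq_of_ne (a := (0 : Fin 2)) (a' := 1) (by decide),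
    Finsupp.single_eq_of_ne (a := (1 : Fin 2)) (a' := 0) (by decide)]
  ring

end Det

/-- Decomposition group elements are decomposition-like on `E(Q̄)`. -/
theorem decompOn_galAdd (W : WeierstrassCurve ℤ) (A : ValuationSubring Qb) (σ : Qb ≃ₐ[ℚ] Qb)
    (hσ : σ ∈ A.decompositionSubgroup ℚ) :
    DecompOn A (EQ W) (σ : Qb →+* Qb) (galAdd W σ) where
  val_eq := (valOn_galAdd W A σ hσ).val_eq
  fix₁ := by rw [EQ_a₁]; exact map_intCast _ _
  fix₂ := by rw [EQ_a₂]; exact map_intCast _ _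
  fix₃ := by rw [EQ_a₃]; exact map_intCast _ _
  fix₄ := by rw [EQ_a₄]; exact map_intCast _ _
  fix₆ := by rw [EQ_a₆]; exact map_intCast _ _
  map_some := (valOn_galAdd W A σ hσ).map_some

theorem decompOn_galAdd_of_inertia (W : WeierstrassCurve ℤ) (A : ValuationSubring Qb)
    (σ : Qb ≃ₐ[ℚ] Qb) (hσ : σ ∈ A.inertiaSubgroupIn ℚ) :
    DecompOn A (EQ W) (σ : Qb →+* Qb) (galAdd W σ) where
  val_eq := (inertiaOn_galAdd W A σ hσ).val_eq
  fix₁ := by rw [EQ_a₁]; exact map_intCast _ _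
  fix₂ := by rw [EQ_a₂]; exact map_intCast _ _
  fix₃ := by rw [EQ_a₃]; exact map_intCast _ _
  fix₄ := by rw [EQ_a₄]; exact map_intCast _ _
  fix₆ := by rw [EQ_a₆]; exact map_intCast _ _
  map_some := (inertiaOn_galAdd W A σ hσ).map_some

/-- **T6-ASM.** -/
theorem stmt_T6_of (hLOC : Stmt_LOC) (hLIN : Stmt_LIN) (hT2 : Fermat.Agent.Tate.Stmt_T2) :
    Fermat.Agent.Tate.Stmt_T6 := by
  intro W hΔ hss p _ hp2 D hbad
  have hp : p.Prime := Fact.out
  have hdvd : (p : ℤ) ∣ W.Δ := by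
    by_contra h
    exact hbad h
  have hc4 : ¬ (p : ℤ) ∣ W.c₄ := hss p hp hdvd
  have hdet := hT2 W hΔ p D
  refine ⟨hdet.1, fun P hP => ?_⟩
  -- the local theorem at `P`
  have hpv : P.valuation ((p : ℕ) : Qb) < 1 := (P.mem_nonunits_iff).1 hP
  have hΔ0 : (EQ W).Δ ≠ 0 := by
    rw [EQ_Δ]; exact_mod_cast hΔ
  have hΔv : P.valuation (EQ W).Δ < 1 := by
    rw [EQ_Δ]; exact Fermat.Agent.S05.H15.valuation_intCast_lt_one_of_dvd hP hdvd
  have hc₄v : P.valuation (EQ W).c₄ = 1 := by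
    rw [EQ_c₄]; exact Fermat.Agent.S05.H15.valuation_intCast_eq_one_of_not_dvd hp hP hc4
  obtain ⟨G, instG, c, ha, hb, hc, hd⟩ :=
    hLOC Qb P p hp hp2 hpv (EQ W) (EQ_intCoeff W P) hΔ0 hΔv hc₄v
  -- the line
  obtain ⟨b, hL⟩ := hLIN p D.ρ.V D.ρ.finrank_eq (EQbar W) D.lev D.lev_tors D.lev_surj D.lev_ker
    D.lev_succ G c ha hb
  -- the action of `σ` on `c ∘ lev k`
  have hact : ∀ (σ : GQ) (k : ℕ) (v : D.ρ.V),
      c (D.lev k (D.ρ.ρ σ v)) = c (galAdd W σ (D.lev k v)) := by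
    intro σ k v
    rw [D.lev_equiv, galAdd_apply]
  -- `-v`
  have hneg : ∀ (k : ℕ) (v : D.ρ.V), c (D.lev k (-v)) = - c (D.lev k v) := by
    intro k v
    rw [map_neg, map_neg]
  refine ⟨Submodule.span ℤ_[p] {b 0}, ⟨b, rfl⟩, ?_, ?_, ?_⟩
  · -- stability under the decomposition group
    intro σ hσ v hv
    rw [← hL] at hv ⊢
    intro k
    rw [hact]
    rcases hc _ _ (decompOn_galAdd W P σ hσ) with h | h
    · rw [h, hv k]
    · rw [h, hv k, neg_zero]
  · -- inertia
    intro σ hσ v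
    rw [← hL]
    intro k
    rw [map_sub, map_sub, hact,
      hd _ _ (decompOn_galAdd_of_inertia W P σ hσ) (inertiaOn_galAdd W P σ hσ).res, sub_self]
  · -- the characters
    intro σ hσ
    -- the sign
    obtain ⟨z, hz2, hz⟩ : ∃ z : ℤ_[p], z * z = 1 ∧
        ∀ (k : ℕ) (v : D.ρ.V), c (D.lev k (D.ρ.ρ σ v - z • v)) = 0 := by
      rcases hc _ _ (decompOn_galAdd W P σ hσ) with h | h
      · refine ⟨1, one_mul 1, fun k v => ?_⟩
        rw [one_smul, map_sub, map_sub, hact, h, sub_self]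
      · refine ⟨-1, by ring, fun k v => ?_⟩
        rw [neg_one_smul, sub_neg_eq_add, map_add, map_add, hact, h, neg_add_cancel]
    have hzL : ∀ v : D.ρ.V, D.ρ.ρ σ v - z • v ∈ Submodule.span ℤ_[p] {b 0} := by
      intro v
      rw [← hL]
      exact fun k => hz k v
    -- the eigenvalue on the line
    have hb0 : D.ρ.ρ σ (b 0) ∈ Submodule.span ℤ_[p] {b 0} := by
      rw [← hL]
      intro k
      rw [hact]
      have h0 : ∀ k, c (D.lev k (b 0)) = 0 :=
        (hL (b 0)).2 (Submodule.mem_span_singleton_self _)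
      rcases hc _ _ (decompOn_galAdd W P σ hσ) with h | h
      · rw [h, h0 k]
      · rw [h, h0 k, neg_zero]
    obtain ⟨x, hx⟩ := Submodule.mem_span_singleton.1 hb0
    obtain ⟨t, ht⟩ := Submodule.mem_span_singleton.1 (hzL (b 1))
    refine ⟨x, z, ?_, hzL, ?_⟩
    · intro w hw
      obtain ⟨s, rfl⟩ := Submodule.mem_span_singleton.1 hw
      rw [map_smul, ← hx, smul_comm]
    · intro n a hμ
      have h1 : D.ρ.ρ σ (b 1) = z • b 1 + t • b 0 := by
        rw [ht]; abel
      have hdetσ : LinearMap.det (D.ρ.ρ σ) = x * z :=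
        det_of_triangular b (D.ρ.ρ σ) x z t hx.symm h1
      have h2 := hdet.2 n σ a hμ
      rw [hdetσ] at h2
      have e : x - (a : ℤ_[p]) * z = z * (x * z - (a : ℤ_[p])) := by
        have : x * (z * z) = x := by rw [hz2, mul_one]
        linear_combination -this
      rw [e]
      exact Ideal.mul_mem_left _ _ h2

end Fermat.Agent.Tate.T6.H01
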