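import Fermat.Agent.Tate.T6.Defs

set_option autoImplicit false

/-!
# Tate T6, package LIN (helper1)

Pure algebra: in an abstract Tate system `(V, lev)` with a "component homomorphism" `c` (a
`p`-torsion point outside its kernel, locally cyclic `p`-power torsion in the image) the
submodule `{v | ∀ k, c (lev k v) = 0}` is spanned by the first vector of a basis of `V`.

Route: `g k := c (lev k v₁)` has order exactly `p ^ k`; `c (lev k (e i)) = j i k • g k` with
compatible `j i k`, limit `a i ∈ ℤ_[p]`; `φ v = a 0 * y 0 + a 1 * y 1` (coordinates `y`) satisfies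
`c (lev k v) = 0 ↔ p ^ k ∣ φ v`, `φ v₁ = 1`; the basis is `(a 1 e 0 - a 0 e 1, v₁)`.
-/

namespace Fermat.Agent.Tate.T6.H01

open IsLocalRing

section Padic

variable {p : ℕ} [Fact p.Prime]

/-- A sequence of naturals which is compatible modulo `p ^ k` has a limit in `ℤ_[p]`. -/
theorem exists_padic_limit (f : ℕ → ℕ)
    (hf : ∀ k, ((p : ℤ) ^ k) ∣ (f (k + 1) : ℤ) - f k) :
    ∃ a : ℤ_[p], ∀ k, ((p : ℤ_[p]) ^ k) ∣ a - (f k : ℤ_[p]) := by
  have hmn : ∀ m n, m ≤ n → ((p : ℤ) ^ m) ∣ (f n : ℤ) - f m := by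
    intro m n hmn
    induction n, hmn using Nat.le_induction with
    | base => simp
    | succ n hmn ih =>
      have h1 : ((p : ℤ) ^ m) ∣ (f (n + 1) : ℤ) - f n :=
        (pow_dvd_pow (p : ℤ) hmn).trans (hf n)
      have : (f (n + 1) : ℤ) - f m = ((f (n + 1) : ℤ) - f n) + ((f n : ℤ) - f m) := by ring
      rw [this]
      exact dvd_add h1 ih
  have hprec := IsPrecomplete.prec' (I := maximalIdeal ℤ_[p]) (M := ℤ_[p])
    (fun k => (f k : ℤ_[p])) (by
      intro m n hmn'
      rw [SModEq.sub_mem, smul_eq_mul, Ideal.mul_top, PadicInt.maximalIdeal_eq_span_p,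
        Ideal.span_singleton_pow, Ideal.mem_span_singleton]
      obtain ⟨t, ht⟩ := hmn m n hmn'
      refine ⟨-(t : ℤ_[p]), ?_⟩
      have : ((f n : ℤ) : ℤ_[p]) - ((f m : ℤ) : ℤ_[p]) = ((p : ℤ_[p]) ^ m) * (t : ℤ_[p]) := by
        have := congrArg (Int.cast : ℤ → ℤ_[p]) ht
        push_cast at this
        exact this
      push_cast at this
      linear_combination -this)
  obtain ⟨a, ha⟩ := hprec
  refine ⟨a, fun k => ?_⟩
  have := ha k
  rw [SModEq.sub_mem, smul_eq_mul, Ideal.mul_top, PadicInt.maximalIdeal_eq_span_p,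
    Ideal.span_singleton_pow, Ideal.mem_span_singleton] at this
  obtain ⟨t, ht⟩ := this
  exact ⟨-t, by linear_combination -ht⟩

/-- An element of `ℤ_[p]` divisible by all powers of `p` is zero. -/
theorem eq_zero_of_forall_pow_dvd (a : ℤ_[p]) (h : ∀ k, ((p : ℤ_[p]) ^ k) ∣ a) : a = 0 := by
  rw [← PadicInt.ext_of_toZModPow]
  intro k
  rw [map_zero, ← RingHom.mem_ker, PadicInt.ker_toZModPow, Ideal.mem_span_singleton]
  exact h k

theorem dvd_sub_appr (a : ℤ_[p]) (k : ℕ) : ((p : ℤ_[p]) ^ k) ∣ a - (a.appr k : ℤ_[p]) :=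
  Ideal.mem_span_singleton.1 (PadicInt.appr_spec k a)

end Padic

section System

variable {p : ℕ} [Fact p.Prime] {V : Type} [AddCommGroup V] [Module ℤ_[p] V]
  {X : Type} [AddCommGroup X] (lev : ℕ → V →+ X)

/-- `lev k` kills `p ^ k V`. -/
theorem lev_pow_smul (h1 : ∀ k v, (p ^ k) • lev k v = 0) (k : ℕ) (w : V) :
    lev k (((p : ℤ_[p]) ^ k) • w) = 0 := by
  have : ((p : ℤ_[p]) ^ k) • w = (p ^ k : ℕ) • w := by
    rw [← Nat.cast_pow, Nat.cast_smul_eq_nsmul]
  rw [this, map_nsmul]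
  exact h1 k w

/-- `lev k (y • w) = (y mod p ^ k) • lev k w`. -/
theorem lev_smul (h1 : ∀ k v, (p ^ k) • lev k v = 0) (k : ℕ) (y : ℤ_[p]) (w : V) :
    lev k (y • w) = (y.appr k) • lev k w := by
  obtain ⟨z, hz⟩ := dvd_sub_appr y k
  have hy : y = (y.appr k : ℤ_[p]) + (p : ℤ_[p]) ^ k * z := by linear_combination hz
  have : y • w = (y.appr k) • w + ((p : ℤ_[p]) ^ k) • (z • w) := by
    conv_lhs => rw [hy]
    rw [add_smul, mul_smul, Nat.cast_smul_eq_nsmul]
  rw [this, map_add, lev_pow_smul lev h1, add_zero, map_nsmul]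

/-- Compatibility over several levels. -/
theorem pow_smul_lev (h4 : ∀ k v, p • lev (k + 1) v = lev k v) (k j : ℕ) (v : V) :
    (p ^ j) • lev (k + j) v = lev k v := by
  induction j with
  | zero => simp
  | succ j ih =>
    rw [pow_succ, mul_smul, ← add_assoc, h4, ih]

variable {G : Type} [AddCommGroup G] (c : X →+ G)

/-- The order of `c (lev k v₁)` is `p ^ k` when `c (lev 1 v₁) ≠ 0`. -/
theorem addOrderOf_gen (h1 : ∀ k v, (p ^ k) • lev k v = 0)
    (h4 : ∀ k v, p • lev (k + 1) v = lev k v) (v₁ : V) (hv₁ : c (lev 1 v₁) ≠ 0) (k : ℕ) :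
    addOrderOf (c (lev k v₁)) = p ^ k := by
  cases k with
  | zero =>
    have : lev 0 v₁ = 0 := by simpa using h1 0 v₁
    rw [this, map_zero, addOrderOf_zero, pow_zero]
  | succ k =>
    refine addOrderOf_eq_prime_pow ?_ ?_
    · rw [← map_nsmul]
      have := pow_smul_lev lev h4 1 k v₁
      rw [add_comm 1 k] at this
      rw [this]
      exact hv₁
    · rw [← map_nsmul, h1, map_zero]

theorem zsmul_gen_eq_zero_iff (h1 : ∀ k v, (p ^ k) • lev k v = 0)
    (h4 : ∀ k v, p • lev (k + 1) v = lev k v) (v₁ : V) (hv₁ : c (lev 1 v₁) ≠ 0) (k : ℕ)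
    (z : ℤ) : z • c (lev k v₁) = 0 ↔ ((p : ℤ) ^ k) ∣ z := by
  rw [← addOrderOf_dvd_iff_zsmul_eq_zero, addOrderOf_gen lev c h1 h4 v₁ hv₁ k, Nat.cast_pow]

end System

section Basis

variable {R : Type*} [CommRing R] {V : Type*} [AddCommGroup V] [Module R V]

/-- A unimodular change of basis in rank two: if `a 0 * x 0 + a 1 * x 1 = 1` then
`(a 1 e 0 - a 0 e 1, x 0 e 0 + x 1 e 1)` is a basis, and the second coordinate in it is
`a 0 * y 0 + a 1 * y 1`. -/
noncomputable def unimodEquiv (e : Module.Basis (Fin 2) R V) (a x : Fin 2 → R)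
    (h : a 0 * x 0 + a 1 * x 1 = 1) : V ≃ₗ[R] (Fin 2 → R) where
  toFun v := ![x 1 * e.repr v 0 - x 0 * e.repr v 1, a 0 * e.repr v 0 + a 1 * e.repr v 1]
  map_add' v w := by
    ext i
    fin_cases i
    · simp only [map_add, Finsupp.coe_add, Pi.add_apply, Fin.zero_eta, Matrix.cons_val_zero]
      ring
    · simp only [map_add, Finsupp.coe_add, Pi.add_apply, Fin.mk_one, Matrix.cons_val_one,
        Matrix.cons_val_zero]
      ring
  map_smul' r v := by
    ext i
    fin_cases i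
    · simp only [map_smul, Finsupp.coe_smul, Pi.smul_apply, smul_eq_mul, Fin.zero_eta,
        Matrix.cons_val_zero, RingHom.id_apply]
      ring
    · simp only [map_smul, Finsupp.coe_smul, Pi.smul_apply, smul_eq_mul, Fin.mk_one,
        Matrix.cons_val_one, Matrix.cons_val_zero, RingHom.id_apply]
      ring
  invFun s := s 0 • (a 1 • e 0 - a 0 • e 1) + s 1 • (x 0 • e 0 + x 1 • e 1)
  left_inv v := by
    apply e.repr.injective
    ext i
    fin_cases i
    · simp only [Matrix.cons_val_zero, Matrix.cons_val_one, map_add, map_smul, map_sub,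
        Module.Basis.repr_self, Finsupp.coe_add, Finsupp.coe_smul, Finsupp.coe_sub, Pi.add_apply,
        Pi.smul_apply, Pi.sub_apply, smul_eq_mul, Fin.zero_eta, Finsupp.single_eq_same]
      rw [Finsupp.single_eq_of_ne (by decide)]
      linear_combination (e.repr v 0) * h
    · simp only [Matrix.cons_val_zero, Matrix.cons_val_one, map_add, map_smul, map_sub,
        Module.Basis.repr_self, Finsupp.coe_add, Finsupp.coe_smul, Finsupp.coe_sub, Pi.add_apply,
        Pi.smul_apply, Pi.sub_apply, smul_eq_mul, Fin.mk_one, Finsupp.single_eq_same]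
      rw [Finsupp.single_eq_of_ne (by decide)]
      linear_combination (e.repr v 1) * h
  right_inv s := by
    ext i
    fin_cases i
    · simp only [map_add, map_smul, map_sub, Module.Basis.repr_self, Finsupp.coe_add,
        Finsupp.coe_smul, Finsupp.coe_sub, Pi.add_apply, Pi.smul_apply, Pi.sub_apply,
        smul_eq_mul, Fin.zero_eta, Matrix.cons_val_zero, Finsupp.single_eq_same]
      rw [Finsupp.single_eq_of_ne (a := (1 : Fin 2)) (a' := 0) (by decide),
        Finsupp.single_eq_of_ne (a := (0 : Fin 2)) (a' := 1) (by decide)]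
      linear_combination (s 0) * h
    · simp only [map_add, map_smul, map_sub, Module.Basis.repr_self, Finsupp.coe_add,
        Finsupp.coe_smul, Finsupp.coe_sub, Pi.add_apply, Pi.smul_apply, Pi.sub_apply,
        smul_eq_mul, Fin.mk_one, Matrix.cons_val_one, Matrix.cons_val_zero,
        Finsupp.single_eq_same]
      rw [Finsupp.single_eq_of_ne (a := (1 : Fin 2)) (a' := 0) (by decide),
        Finsupp.single_eq_of_ne (a := (0 : Fin 2)) (a' := 1) (by decide)]
      linear_combination (s 1) * h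

end Basis

/-- **LIN.** -/
theorem stmt_LIN : Stmt_LIN := by
  intro p _ V _ _ _ _ hrank X _ lev h1 h2 h3 h4 G _ c hP hcyc
  classical
  obtain ⟨P, hpP, hcP⟩ := hP
  obtain ⟨v₁, hv₁⟩ := h2 1 P (by rw [pow_one]; exact hpP)
  have hv₁c : c (lev 1 v₁) ≠ 0 := by rw [hv₁]; exact hcP
  -- every `c (lev k w)` is a multiple of `g k = c (lev k v₁)`
  have hmult : ∀ k (w : V), ∃ j : ℕ, c (lev k w) = j • c (lev k v₁) := by
    intro k w
    cases k with
    | zero =>
      refine ⟨0, ?_⟩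
      have : lev 0 w = 0 := by simpa using h1 0 w
      rw [this, map_zero, zero_smul]
    | succ k =>
      refine hcyc k (lev (k + 1) v₁) (lev (k + 1) w) (h1 _ _) (h1 _ _) ?_
      rw [← map_nsmul]
      have := pow_smul_lev lev h4 1 k v₁
      rw [add_comm 1 k] at this
      rw [this]
      exact hv₁c
  let e : Module.Basis (Fin 2) ℤ_[p] V := Module.finBasisOfFinrankEq ℤ_[p] V hrank
  choose j hj using fun (i : Fin 2) (k : ℕ) => hmult k (e i)
  have hg : ∀ k, c (lev k v₁) = p • c (lev (k + 1) v₁) := by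
    intro k
    rw [← map_nsmul, h4]
  have hcompat : ∀ i k, ((p : ℤ) ^ k) ∣ (j i (k + 1) : ℤ) - j i k := by
    intro i k
    rw [← zsmul_gen_eq_zero_iff lev c h1 h4 v₁ hv₁c k, sub_smul, natCast_zsmul, natCast_zsmul,
      sub_eq_zero, ← hj i k]
    conv_lhs => rw [hg k]
    rw [smul_comm, ← hj i (k + 1), ← map_nsmul, h4]
  choose a ha using fun i => exists_padic_limit (p := p) (j i) (hcompat i)
  -- coordinates
  have hkey : ∀ (v : V) (k : ℕ), c (lev k v) =
      ((e.repr v 0).appr k * j 0 k + (e.repr v 1).appr k * j 1 k) • c (lev k v₁) := by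
    intro v k
    conv_lhs => rw [← e.sum_repr v]
    rw [Fin.sum_univ_two, map_add, map_add, lev_smul lev h1, lev_smul lev h1, map_nsmul,
      map_nsmul, hj 0 k, hj 1 k, smul_smul, smul_smul, ← add_smul]
  have hdiff : ∀ (v : V) (k : ℕ), ((p : ℤ_[p]) ^ k) ∣
      (a 0 * e.repr v 0 + a 1 * e.repr v 1) -
        ((((e.repr v 0).appr k * j 0 k + (e.repr v 1).appr k * j 1 k : ℕ) : ℤ) : ℤ_[p]) := by
    intro v k
    obtain ⟨t0, ht0⟩ := dvd_sub_appr (e.repr v 0) k
    obtain ⟨t1, ht1⟩ := dvd_sub_appr (e.repr v 1) k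
    obtain ⟨s0, hs0⟩ := ha 0 k
    obtain ⟨s1, hs1⟩ := ha 1 k
    refine ⟨s0 * e.repr v 0 + (j 0 k : ℤ_[p]) * t0 + (s1 * e.repr v 1 + (j 1 k : ℤ_[p]) * t1), ?_⟩
    push_cast
    linear_combination (e.repr v 0) * hs0 + (j 0 k : ℤ_[p]) * ht0 + (e.repr v 1) * hs1 +
      (j 1 k : ℤ_[p]) * ht1
  have hφ : ∀ (v : V) (k : ℕ), c (lev k v) = 0 ↔
      ((p : ℤ_[p]) ^ k) ∣ (a 0 * e.repr v 0 + a 1 * e.repr v 1) := by
    intro v k
    rw [hkey, ← natCast_zsmul, zsmul_gen_eq_zero_iff lev c h1 h4 v₁ hv₁c k,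
      ← PadicInt.pow_p_dvd_int_iff]
    constructor
    · intro h
      have := dvd_add h (hdiff v k)
      rwa [add_sub_cancel] at this
    · intro h
      have := dvd_sub h (hdiff v k)
      rwa [sub_sub_cancel] at this
  -- `φ v₁ = 1`
  have hone : a 0 * e.repr v₁ 0 + a 1 * e.repr v₁ 1 = 1 := by
    rw [← sub_eq_zero]
    apply eq_zero_of_forall_pow_dvd
    intro k
    have h5 := hkey v₁ k
    have h6 : ((((e.repr v₁ 0).appr k * j 0 k + (e.repr v₁ 1).appr k * j 1 k : ℕ) : ℤ) - 1) •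
        c (lev k v₁) = 0 := by
      rw [sub_smul, natCast_zsmul, one_smul, ← h5, sub_self]
    rw [zsmul_gen_eq_zero_iff lev c h1 h4 v₁ hv₁c k, ← PadicInt.pow_p_dvd_int_iff] at h6
    have := dvd_add h6 (hdiff v₁ k)
    push_cast at this ⊢
    have e2 : (a 0 * e.repr v₁ 0 + a 1 * e.repr v₁ 1 - 1 : ℤ_[p]) =
        (((e.repr v₁ 0).appr k : ℤ_[p]) * (j 0 k : ℤ_[p]) +
          ((e.repr v₁ 1).appr k : ℤ_[p]) * (j 1 k : ℤ_[p]) - 1) +
        (a 0 * e.repr v₁ 0 + a 1 * e.repr v₁ 1 -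
          (((e.repr v₁ 0).appr k : ℤ_[p]) * (j 0 k : ℤ_[p]) +
            ((e.repr v₁ 1).appr k : ℤ_[p]) * (j 1 k : ℤ_[p]))) := by ring
    rw [e2]
    exact this
  -- the basis
  let Θ := unimodEquiv e a (fun i => e.repr v₁ i) hone
  refine ⟨Module.Basis.ofEquivFun Θ, fun v => ?_⟩
  have hb0 : Module.Basis.ofEquivFun Θ 0 = a 1 • e 0 - a 0 • e 1 := by
    rw [Module.Basis.coe_ofEquivFun]
    show (Pi.single (0 : Fin 2) (1 : ℤ_[p]) : Fin 2 → ℤ_[p]) 0 • (a 1 • e 0 - a 0 • e 1) +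
      (Pi.single (0 : Fin 2) (1 : ℤ_[p]) : Fin 2 → ℤ_[p]) 1 •
        (e.repr v₁ 0 • e 0 + e.repr v₁ 1 • e 1) = _
    rw [Pi.single_eq_same, Pi.single_eq_of_ne (by decide), one_smul, zero_smul, add_zero]
  have hΘ1 : ∀ w : V, Θ w 1 = a 0 * e.repr w 0 + a 1 * e.repr w 1 := fun w => rfl
  have hzero : (∀ k, c (lev k v) = 0) ↔ Θ v 1 = 0 := by
    rw [hΘ1]
    constructor
    · intro h
      exact eq_zero_of_forall_pow_dvd _ fun k => (hφ v k).1 (h k)
    · intro h k
      rw [hφ v k, h]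
      exact dvd_zero _
  rw [hzero, hb0, Submodule.mem_span_singleton]
  constructor
  · intro h
    refine ⟨Θ v 0, ?_⟩
    have h7 : Θ.symm (Θ v) = v := Θ.symm_apply_apply v
    have h8 : Θ.symm (Θ v) = (Θ v) 0 • (a 1 • e 0 - a 0 • e 1) +
        (Θ v) 1 • (e.repr v₁ 0 • e 0 + e.repr v₁ 1 • e 1) := rfl
    rw [h8, h, zero_smul, add_zero] at h7
    exact h7
  · rintro ⟨s, rfl⟩
    rw [map_smul, Pi.smul_apply, hΘ1]
    simp only [map_sub, map_smul, Module.Basis.repr_self, Finsupp.coe_sub, Finsupp.coe_smul,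
      Pi.sub_apply, Pi.smul_apply, smul_eq_mul, Finsupp.single_eq_same]
    rw [Finsupp.single_eq_of_ne (a := (1 : Fin 2)) (a' := 0) (by decide),
      Finsupp.single_eq_of_ne (a := (0 : Fin 2)) (a' := 1) (by decide)]
    ring

end Fermat.Agent.Tate.T6.H01
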