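/-
Stmt_Tate part T6 (strictly ordinary at a bad prime `p ≠ 2`) — owner helper14.
Plan: NOTES/plan/Tate_T6.md.  Target: `Fermat.Agent.Tate.Stmt_T6` (Tate/Defs.lean), proved as
`Stmt_T2 → Stmt_T6` (the character on the line is read off from the determinant).

Interfaces of the pieces (exact Lean statements).  Prove `theorem … : Stmt_X` in
`Fermat/Agent/Tate/T6/H<seat>_<Name>.lean`, namespace `Fermat.Agent.Tate.T6.H<seat>`.

* `Stmt_NOD`  : the nonsingular points of the nodal cubic `y² = x³ + β² x²` map homomorphically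
                to `kˣ` by `(x, y) ↦ (y - β x) / (y + β x)`.
* `Stmt_DP`   : in characteristic `p`, the `p`-th division polynomial of the nodal cubic is
                `c · X ^ ((p² - p)/2)`, `c ≠ 0`  ("the formal group has height one").
* `Stmt_CG`   : in `Γ / ⟨β⟩`, `Γ` torsion free, the `p`-power torsion is locally cyclic.
* `Stmt_LOC`  : the local theorem: a component homomorphism `c` on `E(L)` (multiplicative
                reduction, residue characteristic `p` odd) with (a) a `p`-torsion point outside its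
                kernel, (b) local cyclicity, (c) decomposition-like maps act on it by a sign,
                inertia-like maps trivially.
* `Stmt_LIN`  : pure algebra: the line `{v | ∀ k, c (lev k v) = 0}` of an abstract Tate system is
                spanned by the first vector of a basis.
-/
import Fermat.Agent.Tate.Defs
import Fermat.Agent.Lib.EllFinite.H4_RedVal

set_option autoImplicit false

open WeierstrassCurve WeierstrassCurve.Affine Polynomial

namespace Fermat.Agent.Tate.T6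

open Fermat.Agent.Lib.EllFinite.H4 (IntCoeff)

/-! ### The nodal cubic -/

/-- The nodal cubic `y² = x³ + a x²`. -/
def nodal {k : Type*} [CommRing k] (a : k) : WeierstrassCurve k := ⟨0, a, 0, 0, 0⟩

/-- **NOD**: `(x, y) ↦ (y - β x) / (y + β x)` is a homomorphism from the nonsingular points of
`y² = x³ + β² x²` to `kˣ`. -/
def Stmt_NOD : Prop :=
  ∀ (k : Type) [Field k] [DecidableEq k] (β : k), β ≠ 0 → (2 : k) ≠ 0 →
    ∃ f : (nodal (β ^ 2)).toAffine.Point →+ Additive kˣ,
      ∀ (x y : k) (h : (nodal (β ^ 2)).toAffine.Nonsingular x y),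
        ((Additive.toMul (f (.some x y h)) : kˣ) : k) * (y + β * x) = y - β * x

/-- **DP**: the `p`-th division polynomial of a nodal cubic in characteristic `p ≠ 2`. -/
def Stmt_DP : Prop :=
  ∀ (k : Type) [Field k] (p : ℕ) [Fact p.Prime] [CharP k p], p ≠ 2 → ∀ a : k, a ≠ 0 →
    ∃ c : k, c ≠ 0 ∧ (nodal a).preΨ' p = C c * X ^ ((p ^ 2 - p) / 2)

/-! ### The component group -/

/-- **CG**: `p`-power torsion of `Γ / ⟨β⟩` is locally cyclic (`Γ` torsion free). -/
def Stmt_CG : Prop :=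
  ∀ (Γ : Type) [CommGroup Γ], (∀ (g : Γ) (n : ℕ), 0 < n → g ^ n = 1 → g = 1) →
  ∀ (β : Γ) (p : ℕ), p.Prime →
  ∀ (k : ℕ) (x₁ x₂ : Γ ⧸ Subgroup.zpowers β),
    x₁ ^ p ^ (k + 1) = 1 → x₂ ^ p ^ (k + 1) = 1 → x₁ ^ p ^ k ≠ 1 → ∃ j : ℕ, x₂ = x₁ ^ j

/-! ### The local theorem -/

/-- An additive self-map `sE` of `E(L)` acting on coordinates by a field endomorphism `σ` which
preserves the valuation and fixes the coefficients of `E` ("decomposition-like"). -/
structure DecompOn {L : Type*} [Field L] [DecidableEq L] (A : ValuationSubring L) (E : Affine L)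
    (σ : L →+* L) (sE : E.Point →+ E.Point) : Prop where
  val_eq : ∀ x, A.valuation (σ x) = A.valuation x
  fix₁ : σ E.a₁ = E.a₁
  fix₂ : σ E.a₂ = E.a₂
  fix₃ : σ E.a₃ = E.a₃
  fix₄ : σ E.a₄ = E.a₄
  fix₆ : σ E.a₆ = E.a₆
  map_some : ∀ (x y : L) (h : E.Nonsingular x y),
    ∃ h' : E.Nonsingular (σ x) (σ y), sE (.some x y h) = .some (σ x) (σ y) h'

/-- **LOC**: the component homomorphism at a prime of multiplicative reduction, residue
characteristic `p` odd. -/
def Stmt_LOC : Prop :=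
  ∀ (L : Type) [Field L] [DecidableEq L] [IsAlgClosed L] [CharZero L] (A : ValuationSubring L)
    (p : ℕ), p.Prime → p ≠ 2 → A.valuation (p : L) < 1 →
  ∀ (E : Affine L), IntCoeff A E → E.Δ ≠ 0 → A.valuation E.Δ < 1 → A.valuation E.c₄ = 1 →
  ∃ (G : Type) (_ : AddCommGroup G) (c : E.Point →+ G),
    (∃ P : E.Point, p • P = 0 ∧ c P ≠ 0) ∧
    (∀ (k : ℕ) (Q₁ Q₂ : E.Point), p ^ (k + 1) • Q₁ = 0 → p ^ (k + 1) • Q₂ = 0 →
        p ^ k • c Q₁ ≠ 0 → ∃ j : ℕ, c Q₂ = j • c Q₁) ∧
    (∀ (σ : L →+* L) (sE : E.Point →+ E.Point), DecompOn A E σ sE →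
        (∀ P, c (sE P) = c P) ∨ (∀ P, c (sE P) = - c P)) ∧
    (∀ (σ : L →+* L) (sE : E.Point →+ E.Point), DecompOn A E σ sE →
        (∀ x, A.valuation x ≤ 1 → A.valuation (σ x - x) < 1) → ∀ P, c (sE P) = c P)

/-! ### The line in an abstract Tate system (pure algebra) -/

/-- **LIN**: `V` free of rank `2` over `ℤ_[p]` with level maps `lev k : V → X` (image `X[p^k]`,
kernel `p^k V`, compatible), `c : X →+ G` with a `p`-torsion point outside the kernel and locally
cyclic `p`-power torsion in the image: the submodule `{v | ∀ k, c (lev k v) = 0}` is spanned by the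
first vector of a basis of `V`. -/
def Stmt_LIN : Prop :=
  ∀ (p : ℕ) [Fact p.Prime] (V : Type) [AddCommGroup V] [Module ℤ_[p] V] [Module.Free ℤ_[p] V]
    [Module.Finite ℤ_[p] V], Module.finrank ℤ_[p] V = 2 →
  ∀ (X : Type) [AddCommGroup X] (lev : ℕ → V →+ X),
    (∀ k v, (p ^ k) • lev k v = 0) →
    (∀ k (x : X), (p ^ k) • x = 0 → ∃ v, lev k v = x) →
    (∀ k v, lev k v = 0 → ∃ w, v = ((p : ℤ_[p]) ^ k) • w) →
    (∀ k v, p • lev (k + 1) v = lev k v) →
  ∀ (G : Type) [AddCommGroup G] (c : X →+ G),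
    (∃ P : X, p • P = 0 ∧ c P ≠ 0) →
    (∀ (k : ℕ) (Q₁ Q₂ : X), p ^ (k + 1) • Q₁ = 0 → p ^ (k + 1) • Q₂ = 0 →
        p ^ k • c Q₁ ≠ 0 → ∃ j : ℕ, c Q₂ = j • c Q₁) →
    ∃ b : Module.Basis (Fin 2) ℤ_[p] V,
      ∀ v : V, (∀ k, c (lev k v) = 0) ↔ v ∈ Submodule.span ℤ_[p] {b 0}

end Fermat.Agent.Tate.T6
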