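/-
Stmt_Tate part T6 — second interface file (helper14): the statements of ROOT and of the sign
lemma COMP on the S05 model.  Plan: NOTES/plan/Tate_T6.md.
-/
import Fermat.Agent.Tate.T6.Defs
import Fermat.Agent.S52.H5_UnipDecomp

set_option autoImplicit false

open WeierstrassCurve WeierstrassCurve.Affine Polynomial

namespace Fermat.Agent.Tate.T6

open Fermat.Agent.S05 (ModelHyp InE0)

/-- **ROOT**: on the S05 model `y² = x³ + a x² + b x` (`|a| = 1`, `|b| < 1`) over an algebraically
closed valued field of characteristic `0` and odd residue characteristic `p` there is a point of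
order `p` outside `E₀` (i.e. with `|x| < 1`). -/
def Stmt_ROOT : Prop :=
  ∀ (L : Type) [Field L] [DecidableEq L] [IsAlgClosed L] [CharZero L] (A : ValuationSubring L)
    (p : ℕ), p.Prime → p ≠ 2 → A.valuation (p : L) < 1 →
  ∀ (W : Affine L), ModelHyp A W → A.valuation W.a₄ < 1 → W.Δ ≠ 0 →
    ∃ (x y : L) (h : W.Nonsingular x y), p • Point.some x y h = 0 ∧ A.valuation x < 1

end Fermat.Agent.Tate.T6
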