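/-
Stmt_Tate part T6, package COMP (helper14): on the S05 model `y² = x³ + a x² + b x`, `|b| < 1`,
`β² = a`, a shifted valuation preserving map `s` (helper5's `ShiftedVal`) with `σ β ≡ β`
(resp. `σ β ≡ -β`) modulo the maximal ideal satisfies `compMap ∘ s = compMap`
(resp. `= - compMap`).  If `|σ a - a| < 1` one of the two cases holds.
-/
import Fermat.Agent.Tate.T6.Defs2

set_option autoImplicit false

open WeierstrassCurve WeierstrassCurve.Affine

namespace Fermat.Agent.Tate.T6

open Fermat.Agent.S05 Fermat.Agent.S52.H5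

section branch

variable {L : Type*} [Field L] {A : ValuationSubring L}

/-- The branch `|y - γ x| < |x|` goes to the branch of `γ' ≡ σ γ` under a shifted valuation
preserving map. -/
lemma branch_shift_gen {σ : L →+* L} (hσv : ∀ x, A.valuation (σ x) = A.valuation x)
    {x y x' y' γ γ' : L} {r : A.ValueGroup} (hx : A.valuation (x' - σ x) ≤ r)
    (hy : A.valuation (y' - σ y) ≤ r) (hr : r < A.valuation x) (hγ' : A.valuation γ' ≤ 1)
    (hγγ' : A.valuation (σ γ - γ') < 1) (hbr : A.valuation (y - γ * x) < A.valuation x) :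
    A.valuation (y' - γ' * x') < A.valuation x' := by
  rw [val_shift_eq hσv hx hr]
  have hxpos : 0 < A.valuation x := lt_of_le_of_lt zero_le hr
  have e : y' - γ' * x' = σ (y - γ * x) + (σ γ - γ') * σ x + (y' - σ y) - γ' * (x' - σ x) := by
    rw [map_sub, map_mul]; ring
  rw [e]
  refine Valuation.map_sub_lt _ (Valuation.map_add_lt _ (Valuation.map_add_lt _ ?_ ?_) ?_) ?_
  · rw [hσv]; exact hbr
  · rw [map_mul, hσv]
    calc A.valuation (σ γ - γ') * A.valuation x < 1 * A.valuation x :=
          mul_lt_mul_of_pos_right hγγ' hxpos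
      _ = A.valuation x := one_mul _
  · exact lt_of_le_of_lt hy hr
  · rw [map_mul]
    calc A.valuation γ' * A.valuation (x' - σ x) ≤ 1 * A.valuation (x' - σ x) := by gcongr
      _ = A.valuation (x' - σ x) := one_mul _
      _ ≤ r := hx
      _ < A.valuation x := hr

end branch

section comp

variable {L : Type*} [Field L] [DecidableEq L]

/-- `σ β ≡ β`: the component map is invariant. -/
theorem compMap_shiftVal_pos (A : ValuationSubring L) (W : Affine L) (hyp : ModelHyp A W)
    (hb : A.valuation W.a₄ < 1) (β : L) (hβ : β ^ 2 = W.a₂)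
    (σ : L →+* L) (s : W.Point →+ W.Point) (hs : ShiftedVal A W σ s)
    (hσβ : A.valuation (σ β - β) < 1) (P : W.Point) :
    M1.compMap hyp β (s P) = M1.compMap hyp β P := by
  rcases P with _ | ⟨x, y, h⟩
  · show M1.compMap hyp β (s 0) = M1.compMap hyp β 0
    rw [map_zero]
  obtain ⟨x', y', h', hsP, hxs, hys⟩ := hs.map_some x y h
  rw [hsP]
  have hβ1 : A.valuation β = 1 := M1.val_β hyp hb hβ
  by_cases hx1 : 1 ≤ A.valuation x
  · have hx1' : 1 ≤ A.valuation x' := by
      rw [val_shift_eq hs.val_eq hxs (lt_of_lt_of_le hb hx1)]; exact hx1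
    rw [M1.compMap_of_one_le hyp β h hx1, M1.compMap_of_one_le hyp β h' hx1']
  push Not at hx1
  by_cases hxb : A.valuation x ≤ A.valuation W.a₄
  · rw [M1.compMap_of_le_b hyp β hb h hxb,
      M1.compMap_of_le_b hyp β hb h' (val_shift_le hs.val_eq hxs hxb)]
  push Not at hxb
  have hvx' : A.valuation x' = A.valuation x := val_shift_eq hs.val_eq hxs hxb
  have hx0 : x ≠ 0 := by
    rintro rfl
    rw [map_zero] at hxb
    exact not_lt_zero hxb
  have hx0' : x' ≠ 0 := by
    intro h0
    rw [h0, map_zero] at hvx'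
    rw [← hvx'] at hxb
    exact not_lt_zero hxb
  have hvu : valUnit A x' hx0' = valUnit A x hx0 := by
    apply Units.ext
    simp [valUnit, hvx']
  have hxb' : A.valuation W.a₄ < A.valuation x' := by rw [hvx']; exact hxb
  have hx1' : A.valuation x' < 1 := by rw [hvx']; exact hx1
  by_cases ht : A.valuation (y - β * x) < A.valuation x
  · have ht' : A.valuation (y' - β * x') < A.valuation x' :=
      branch_shift_gen hs.val_eq hxs hys hxb hβ1.le hσβ ht
    rw [M1.compMap_of_Cp hyp β h hx0 hxb hx1 ht, M1.compMap_of_Cp hyp β h' hx0' hxb' hx1' ht', hvu]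
  · have hm : A.valuation (y + β * x) < A.valuation x := by
      rcases M1.mid_or hyp hb hβ h hxb hx1 with h1 | h1
      · exact absurd h1 ht
      · exact h1
    have hm' : A.valuation (y' + β * x') < A.valuation x' := by
      have hm2 : A.valuation (y - (-β) * x) < A.valuation x := by
        have : y - (-β) * x = y + β * x := by ring
        rw [this]; exact hm
      have hσ' : A.valuation (σ (-β) - (-β)) < 1 := by
        have : σ (-β) - (-β) = -(σ β - β) := by rw [map_neg]; ring
        rw [this, Valuation.map_neg]; exact hσβ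
      have := branch_shift_gen hs.val_eq hxs hys hxb
        (by rw [Valuation.map_neg]; exact hβ1.le) hσ' hm2
      have e : y' - (-β) * x' = y' + β * x' := by ring
      rwa [e] at this
    have ht' : ¬ A.valuation (y' - β * x') < A.valuation x' :=
      fun hcon => M1.mid_not_both hyp hb hβ hx0' hcon hm'
    rw [M1.compMap_of_not_Cp hyp β h hx0 hxb hx1 ht,
      M1.compMap_of_not_Cp hyp β h' hx0' hxb' hx1' ht', hvu]

/-- `σ β ≡ -β`: the component map is negated. -/
theorem compMap_shiftVal_neg (A : ValuationSubring L) (W : Affine L) (hyp : ModelHyp A W)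
    (hb : A.valuation W.a₄ < 1) (β : L) (hβ : β ^ 2 = W.a₂)
    (σ : L →+* L) (s : W.Point →+ W.Point) (hs : ShiftedVal A W σ s)
    (hσβ : A.valuation (σ β + β) < 1) (P : W.Point) :
    M1.compMap hyp β (s P) = - M1.compMap hyp β P := by
  rcases P with _ | ⟨x, y, h⟩
  · show M1.compMap hyp β (s 0) = - M1.compMap hyp β 0
    rw [map_zero, M1.compMap_zero, neg_zero]
  obtain ⟨x', y', h', hsP, hxs, hys⟩ := hs.map_some x y h
  rw [hsP]
  have hβ1 : A.valuation β = 1 := M1.val_β hyp hb hβ
  by_cases hx1 : 1 ≤ A.valuation x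
  · have hx1' : 1 ≤ A.valuation x' := by
      rw [val_shift_eq hs.val_eq hxs (lt_of_lt_of_le hb hx1)]; exact hx1
    rw [M1.compMap_of_one_le hyp β h hx1, M1.compMap_of_one_le hyp β h' hx1', neg_zero]
  push Not at hx1
  by_cases hxb : A.valuation x ≤ A.valuation W.a₄
  · rw [M1.compMap_of_le_b hyp β hb h hxb,
      M1.compMap_of_le_b hyp β hb h' (val_shift_le hs.val_eq hxs hxb), M1.neg_cls_b]
  push Not at hxb
  have hvx' : A.valuation x' = A.valuation x := val_shift_eq hs.val_eq hxs hxb
  have hx0 : x ≠ 0 := by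
    rintro rfl
    rw [map_zero] at hxb
    exact not_lt_zero hxb
  have hx0' : x' ≠ 0 := by
    intro h0
    rw [h0, map_zero] at hvx'
    rw [← hvx'] at hxb
    exact not_lt_zero hxb
  have hvu : valUnit A x' hx0' = valUnit A x hx0 := by
    apply Units.ext
    simp [valUnit, hvx']
  have hxb' : A.valuation W.a₄ < A.valuation x' := by rw [hvx']; exact hxb
  have hx1' : A.valuation x' < 1 := by rw [hvx']; exact hx1
  by_cases ht : A.valuation (y - β * x) < A.valuation x
  · -- `C₊ → C₋`
    have hm' : A.valuation (y' + β * x') < A.valuation x' := by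
      have hσ' : A.valuation (σ β - (-β)) < 1 := by
        have : σ β - (-β) = σ β + β := by ring
        rw [this]; exact hσβ
      have := branch_shift_gen hs.val_eq hxs hys hxb
        (by rw [Valuation.map_neg]; exact hβ1.le) hσ' ht
      have e : y' - (-β) * x' = y' + β * x' := by ring
      rwa [e] at this
    have ht' : ¬ A.valuation (y' - β * x') < A.valuation x' :=
      fun hcon => M1.mid_not_both hyp hb hβ hx0' hcon hm'
    rw [M1.compMap_of_Cp hyp β h hx0 hxb hx1 ht,
      M1.compMap_of_not_Cp hyp β h' hx0' hxb' hx1' ht', hvu]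
  · -- `C₋ → C₊`
    have hm : A.valuation (y + β * x) < A.valuation x := by
      rcases M1.mid_or hyp hb hβ h hxb hx1 with h1 | h1
      · exact absurd h1 ht
      · exact h1
    have ht' : A.valuation (y' - β * x') < A.valuation x' := by
      have hm2 : A.valuation (y - (-β) * x) < A.valuation x := by
        have : y - (-β) * x = y + β * x := by ring
        rw [this]; exact hm
      have hσ' : A.valuation (σ (-β) - β) < 1 := by
        have : σ (-β) - β = -(σ β + β) := by rw [map_neg]; ring
        rw [this, Valuation.map_neg]; exact hσβ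
      exact branch_shift_gen hs.val_eq hxs hys hxb hβ1.le hσ' hm2
    rw [M1.compMap_of_not_Cp hyp β h hx0 hxb hx1 ht,
      M1.compMap_of_Cp hyp β h' hx0' hxb' hx1' ht', hvu, neg_neg]

/-- If `σ` moves `a = W.a₂` by less than `1`, a shifted valuation preserving map acts on the
component map by a sign. -/
theorem compMap_shiftVal_sign (A : ValuationSubring L) (W : Affine L) (hyp : ModelHyp A W)
    (hb : A.valuation W.a₄ < 1) (β : L) (hβ : β ^ 2 = W.a₂)
    (σ : L →+* L) (s : W.Point →+ W.Point) (hs : ShiftedVal A W σ s)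
    (hσa : A.valuation (σ W.a₂ - W.a₂) < 1) :
    (∀ P, M1.compMap hyp β (s P) = M1.compMap hyp β P) ∨
      (∀ P, M1.compMap hyp β (s P) = - M1.compMap hyp β P) := by
  have key : (σ β - β) * (σ β + β) = σ W.a₂ - W.a₂ := by
    rw [← hβ, map_pow]; ring
  have hprod : A.valuation (σ β - β) * A.valuation (σ β + β) < 1 := by
    rw [← map_mul, key]; exact hσa
  by_cases h1 : A.valuation (σ β - β) < 1
  · exact Or.inl (compMap_shiftVal_pos A W hyp hb β hβ σ s hs h1)
  · by_cases h2 : A.valuation (σ β + β) < 1
    · exact Or.inr (compMap_shiftVal_neg A W hyp hb β hβ σ s hs h2)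
    · exfalso
      push Not at h1 h2
      exact absurd hprod (not_lt.2 (one_le_mul_of_one_le_of_one_le h1 h2))

end comp

end Fermat.Agent.Tate.T6
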