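import Fermat.Agent.Tate.T6.Defs

set_option autoImplicit false

/-!
# Tate T6, package CG (helper1)

`Γ` torsion free commutative group, `β ∈ Γ`: the `p`-power torsion of `Γ / ⟨β⟩` is locally
cyclic.
-/

namespace Fermat.Agent.Tate.T6.H01

/-- In a torsion-free commutative group: if `g₁ ^ P = β ^ n₁`, `g₂ ^ P = β ^ n₂` and `n₁` is
coprime to `P`, then `g₂ ∈ g₁ ^ j * ⟨β⟩` for some natural `j`. -/
theorem exists_pow_mul_zpow {Γ : Type*} [CommGroup Γ]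
    (htf : ∀ (g : Γ) (n : ℕ), 0 < n → g ^ n = 1 → g = 1)
    (β g₁ g₂ : Γ) (P : ℕ) (hP : 0 < P) (n₁ n₂ : ℤ) (h₁ : g₁ ^ P = β ^ n₁) (h₂ : g₂ ^ P = β ^ n₂)
    (hcop : IsCoprime n₁ (P : ℤ)) : ∃ (j : ℕ) (t : ℤ), g₂ = g₁ ^ j * β ^ t := by
  obtain ⟨a, b, hab⟩ := hcop
  -- `j₀ = a n₂` works over `ℤ`; make it natural
  set j₀ : ℤ := a * n₂ with hj₀
  set j : ℤ := j₀ % (P : ℤ) with hj
  have hPz : (P : ℤ) ≠ 0 := by exact_mod_cast hP.ne'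
  have hjnn : 0 ≤ j := Int.emod_nonneg _ hPz
  have hjeq : j = j₀ - (P : ℤ) * (j₀ / (P : ℤ)) := by
    rw [hj, Int.emod_def]
  -- `j n₁ = n₂ + P t`
  set t : ℤ := -(b * n₂) - (j₀ / (P : ℤ)) * n₁ with ht
  have hkey : j * n₁ = n₂ + (P : ℤ) * t := by
    rw [hjeq, ht, hj₀]
    linear_combination n₂ * hab
  refine ⟨j.toNat, -t, ?_⟩
  have hjz : ((j.toNat : ℕ) : ℤ) = j := Int.toNat_of_nonneg hjnn
  have h₁z : g₁ ^ (P : ℤ) = β ^ n₁ := by rw [zpow_natCast]; exact h₁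
  have h₂z : g₂ ^ (P : ℤ) = β ^ n₂ := by rw [zpow_natCast]; exact h₂
  have hone : (g₂ * (g₁ ^ j)⁻¹ * β ^ t) ^ P = 1 := by
    rw [← zpow_natCast, mul_zpow, mul_zpow, inv_zpow, ← zpow_mul, ← zpow_mul, mul_comm j,
      zpow_mul, h₁z, h₂z, ← zpow_mul, ← zpow_neg, ← zpow_add, ← zpow_add]
    have : n₂ + -(n₁ * j) + t * (P : ℤ) = 0 := by
      linear_combination -hkey
    rw [this, zpow_zero]
  have h1 := htf _ P hP hone
  have h3 : g₂ * (g₁ ^ j)⁻¹ * β ^ t * (g₁ ^ j * (β ^ t)⁻¹) = g₂ := by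
    rw [mul_assoc g₂, mul_assoc g₂]
    have : (g₁ ^ j)⁻¹ * β ^ t * (g₁ ^ j * (β ^ t)⁻¹) = 1 := by
      rw [mul_comm (g₁ ^ j), mul_assoc, ← mul_assoc (β ^ t), mul_inv_cancel, one_mul,
        inv_mul_cancel]
    rw [this, mul_one]
  rw [h1, one_mul] at h3
  rw [← zpow_natCast g₁, hjz, zpow_neg]
  exact h3.symm

/-- **CG.** -/
theorem stmt_CG : Stmt_CG := by
  intro Γ _ htf β p hp k x₁ x₂ h1 h2 hne
  obtain ⟨g₁, rfl⟩ := QuotientGroup.mk_surjective x₁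
  obtain ⟨g₂, rfl⟩ := QuotientGroup.mk_surjective x₂
  rw [← QuotientGroup.mk_pow, QuotientGroup.eq_one_iff] at h1 h2
  obtain ⟨n₁, hn₁⟩ := h1
  obtain ⟨n₂, hn₂⟩ := h2
  have hn₁' : g₁ ^ p ^ (k + 1) = β ^ n₁ := hn₁.symm
  have hn₂' : g₂ ^ p ^ (k + 1) = β ^ n₂ := hn₂.symm
  have hPpos : 0 < p ^ (k + 1) := pow_pos hp.pos _
  -- `p ∤ n₁`
  have hndvd : ¬ (p : ℤ) ∣ n₁ := by
    rintro ⟨m, hm⟩
    apply hne
    rw [← QuotientGroup.mk_pow, QuotientGroup.eq_one_iff]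
    refine ⟨m, ?_⟩
    have hone : (g₁ ^ p ^ k * (β ^ m)⁻¹) ^ p = 1 := by
      rw [mul_pow, ← pow_mul, ← pow_succ, hn₁', inv_pow, ← zpow_natCast (β ^ m), ← zpow_mul,
        hm, mul_comm m, mul_inv_cancel]
    have := htf _ p hp.pos hone
    exact (mul_inv_eq_one.1 this).symm
  have hcop : IsCoprime n₁ ((p ^ (k + 1) : ℕ) : ℤ) := by
    rw [Nat.cast_pow]
    refine IsCoprime.pow_right ?_
    rw [isCoprime_comm]
    exact (Nat.prime_iff_prime_int.1 hp).coprime_iff_not_dvd.2 hndvd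
  obtain ⟨j, t, hjt⟩ := exists_pow_mul_zpow htf β g₁ g₂ (p ^ (k + 1)) hPpos n₁ n₂ hn₁' hn₂' hcop
  refine ⟨j, ?_⟩
  rw [← QuotientGroup.mk_pow, hjt, QuotientGroup.mk_mul]
  have : ((β ^ t : Γ) : Γ ⧸ Subgroup.zpowers β) = 1 :=
    (QuotientGroup.eq_one_iff _).2 ⟨t, rfl⟩
  rw [this, mul_one]

end Fermat.Agent.Tate.T6.H01
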