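/-
Tate T6, package NOD (helper97): on the nodal cubic `y² = x³ + β² x²` (`β ≠ 0`), the map
`(x, y) ↦ (y - β x) / (y + β x)` is a homomorphism from the group of nonsingular points to `kˣ`,
with trivial kernel when `2 ≠ 0`.
-/
import Fermat.Agent.Tate.T6.Defs
import Fermat.Agent.S05.Line

set_option autoImplicit false

namespace Fermat.Agent.Tate.T6.H97

open WeierstrassCurve WeierstrassCurve.Affine

variable {k : Type*} [Field k]

lemma nodal_equation_iff (a x y : k) :
    (nodal a).toAffine.Equation x y ↔ y ^ 2 = x ^ 3 + a * x ^ 2 := by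
  rw [Affine.equation_iff]
  simp only [nodal]
  constructor <;> intro h <;> linear_combination h

lemma nodal_x_ne_zero {a x y : k} (h : (nodal a).toAffine.Nonsingular x y) : x ≠ 0 := by
  intro hx
  subst hx
  rw [Affine.nonsingular_iff] at h
  obtain ⟨he, hs⟩ := h
  rw [nodal_equation_iff] at he
  have hy : y = 0 := by
    have : y ^ 2 = 0 := by rw [he]; ring
    exact pow_eq_zero_iff (two_ne_zero) |>.1 this
  subst hy
  simp only [nodal] at hs
  rcases hs with hs | hs
  · exact hs (by ring)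
  · exact hs (by ring)

lemma nodal_nonsingular_of_x_ne_zero {a x y : k} (h2 : (2 : k) ≠ 0)
    (he : y ^ 2 = x ^ 3 + a * x ^ 2) (hx : x ≠ 0) : (nodal a).toAffine.Nonsingular x y := by
  rw [Affine.nonsingular_iff]
  refine ⟨(nodal_equation_iff a x y).2 he, ?_⟩
  simp only [nodal]
  by_contra hcon
  rw [not_or, not_not, not_not] at hcon
  obtain ⟨h1, h2'⟩ := hcon
  have hy : y = 0 := by
    have : 2 * y = 0 := by linear_combination h2'
    exact (mul_eq_zero.1 this).resolve_left h2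
  subst hy
  -- `3 x² + 2 a x = 0` and `x³ + a x² = 0`, `x ≠ 0`
  have e1 : 3 * x + 2 * a = 0 := by
    have : x * (3 * x + 2 * a) = 0 := by linear_combination -h1
    exact (mul_eq_zero.1 this).resolve_left hx
  have e2 : x + a = 0 := by
    have : x ^ 2 * (x + a) = 0 := by linear_combination -he
    exact (mul_eq_zero.1 this).resolve_left (pow_ne_zero 2 hx)
  have : x = 0 := by linear_combination e1 - 2 * e2
  exact hx this

lemma nodal_factor (β x y : k) (he : (nodal (β ^ 2)).toAffine.Equation x y) :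
    (y - β * x) * (y + β * x) = x ^ 3 := by
  rw [nodal_equation_iff] at he
  linear_combination he

lemma nodal_add_ne_zero {β x y : k} (h : (nodal (β ^ 2)).toAffine.Nonsingular x y) :
    y + β * x ≠ 0 := by
  intro h0
  have := nodal_factor β x y h.1
  rw [h0, mul_zero] at this
  exact nodal_x_ne_zero h (pow_eq_zero_iff (by norm_num) |>.1 this.symm)

lemma nodal_sub_ne_zero {β x y : k} (h : (nodal (β ^ 2)).toAffine.Nonsingular x y) :
    y - β * x ≠ 0 := by
  intro h0
  have := nodal_factor β x y h.1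
  rw [h0, zero_mul] at this
  exact nodal_x_ne_zero h (pow_eq_zero_iff (by norm_num) |>.1 this.symm)

/-- The value `(y - β x) / (y + β x)` at a nonsingular point, `1` at the point at infinity. -/
noncomputable def nodVal (β : k) : (nodal (β ^ 2)).toAffine.Point → k
  | .zero => 1
  | .some x y _ => (y - β * x) / (y + β * x)

@[simp] lemma nodVal_zero (β : k) : nodVal β (0 : (nodal (β ^ 2)).toAffine.Point) = 1 := rfl

lemma nodVal_some (β : k) {x y : k} (h : (nodal (β ^ 2)).toAffine.Nonsingular x y) :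
    nodVal β (.some x y h) = (y - β * x) / (y + β * x) := rfl

lemma nodVal_mul_some (β : k) {x y : k} (h : (nodal (β ^ 2)).toAffine.Nonsingular x y) :
    nodVal β (.some x y h) * (y + β * x) = y - β * x := by
  rw [nodVal_some, div_mul_cancel₀ _ (nodal_add_ne_zero h)]

lemma nodVal_ne_zero (β : k) (P : (nodal (β ^ 2)).toAffine.Point) : nodVal β P ≠ 0 := by
  rcases P with _ | ⟨x, y, h⟩
  · exact one_ne_zero
  · rw [nodVal_some]
    exact div_ne_zero (nodal_sub_ne_zero h) (nodal_add_ne_zero h)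

variable [DecidableEq k]

lemma nodVal_neg (β : k) (P : (nodal (β ^ 2)).toAffine.Point) :
    nodVal β (-P) = (nodVal β P)⁻¹ := by
  rcases P with _ | ⟨x, y, h⟩
  · show nodVal β (-0) = (nodVal β 0)⁻¹
    rw [neg_zero, nodVal_zero, inv_one]
  · rw [Point.neg_some, nodVal_some, nodVal_some, inv_div]
    have hn : (nodal (β ^ 2)).toAffine.negY x y = -y := by
      simp [Affine.negY, nodal]
    rw [hn]
    have h1 := nodal_add_ne_zero h
    have h2 := nodal_sub_ne_zero h
    have h3 : -y + β * x ≠ 0 := by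
      intro h0; apply h2; linear_combination -h0
    rw [div_eq_div_iff h3 h2]
    ring

omit [DecidableEq k] in
/-- Three collinear points: the products of `y ∓ β x` agree (both are `μ³`). -/
lemma nodVal_line (β : k) {x₁ y₁ x₂ y₂ x₃ y₃ ℓ μ : k} (e₁ : y₁ = ℓ * x₁ + μ)
    (e₂ : y₂ = ℓ * x₂ + μ) (e₃ : -y₃ = ℓ * x₃ + μ) (v₁ : x₁ + x₂ + x₃ = ℓ ^ 2 - β ^ 2)
    (v₂ : x₁ * x₂ + x₁ * x₃ + x₂ * x₃ = 0 - 2 * ℓ * μ) (v₃ : x₁ * x₂ * x₃ = μ ^ 2) :
    (y₁ - β * x₁) * (y₂ - β * x₂) * (y₃ + β * x₃) =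
      (y₁ + β * x₁) * (y₂ + β * x₂) * (y₃ - β * x₃) := by
  have hy₃ : y₃ = -(ℓ * x₃ + μ) := by linear_combination -e₃
  subst e₁ e₂ hy₃
  linear_combination (-(ℓ - β) ^ 3 + (ℓ + β) ^ 3) * v₃
    + (-(ℓ - β) ^ 2 * μ + (ℓ + β) ^ 2 * μ) * v₂ + (2 * β * μ ^ 2) * v₁

lemma nodVal_add (β : k) (P Q : (nodal (β ^ 2)).toAffine.Point) :
    nodVal β (P + Q) = nodVal β P * nodVal β Q := by
  rcases P with _ | ⟨x₁, y₁, h₁⟩
  · show nodVal β (0 + Q) = nodVal β 0 * _
    rw [zero_add, nodVal_zero, one_mul]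
  rcases Q with _ | ⟨x₂, y₂, h₂⟩
  · show nodVal β (_ + 0) = _ * nodVal β 0
    rw [add_zero, nodVal_zero, mul_one]
  rcases hR : (Point.some x₁ y₁ h₁ + Point.some x₂ y₂ h₂) with _ | ⟨x₃, y₃, h₃⟩
  · -- `Q = -P`
    have hQ : Point.some x₂ y₂ h₂ = -Point.some x₁ y₁ h₁ := by
      have h0 : Point.some x₁ y₁ h₁ + Point.some x₂ y₂ h₂ = 0 := hR
      exact (neg_eq_of_add_eq_zero_right h0).symm
    rw [hQ, nodVal_neg]
    show nodVal β 0 = _
    rw [nodVal_zero, mul_inv_cancel₀ (nodVal_ne_zero β _)]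
  · obtain ⟨ℓ, μ, e₁, e₂, e₃, v₁, v₂, v₃⟩ :=
      Fermat.Agent.S05.line (L := k) (nodal (β ^ 2)).toAffine rfl rfl rfl
        x₁ y₁ x₂ y₂ x₃ y₃ h₁ h₂ h₃ hR
    have v₁' : x₁ + x₂ + x₃ = ℓ ^ 2 - β ^ 2 := v₁
    have v₂' : x₁ * x₂ + x₁ * x₃ + x₂ * x₃ = 0 - 2 * ℓ * μ := v₂
    have key := nodVal_line β e₁ e₂ e₃ v₁' v₂' v₃
    have a₁ := nodal_add_ne_zero h₁
    have a₂ := nodal_add_ne_zero h₂
    have a₃ := nodal_add_ne_zero h₃
    have m₁ := nodVal_mul_some β h₁
    have m₂ := nodVal_mul_some β h₂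
    have m₃ := nodVal_mul_some β h₃
    have hne : (y₁ + β * x₁) * (y₂ + β * x₂) * (y₃ + β * x₃) ≠ 0 :=
      mul_ne_zero (mul_ne_zero a₁ a₂) a₃
    apply mul_right_cancel₀ hne
    linear_combination (-(nodVal β (Point.some x₂ y₂ h₂) * (y₂ + β * x₂) * (y₃ + β * x₃))) * m₁
      + (-((y₁ - β * x₁) * (y₃ + β * x₃))) * m₂
      + ((y₁ + β * x₁) * (y₂ + β * x₂)) * m₃ - key

/-- The homomorphism `Ẽ_ns → kˣ`. -/
noncomputable def nodHom (β : k) : (nodal (β ^ 2)).toAffine.Point →+ Additive kˣ :=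
  AddMonoidHom.mk' (fun P => Additive.ofMul (Units.mk0 (nodVal β P) (nodVal_ne_zero β P)))
    (fun P Q => by
      rw [← ofMul_mul]
      congr 1
      apply Units.ext
      simp only [Units.val_mk0, Units.val_mul]
      exact nodVal_add β P Q)

lemma nodHom_val (β : k) (P : (nodal (β ^ 2)).toAffine.Point) :
    ((Additive.toMul (nodHom β P) : kˣ) : k) = nodVal β P := rfl

omit [DecidableEq k] in
/-- The kernel of `nodHom` is trivial when `2 β ≠ 0`. -/
lemma nodVal_eq_one_iff {β : k} (hβ : β ≠ 0) (h2 : (2 : k) ≠ 0)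
    (P : (nodal (β ^ 2)).toAffine.Point) : nodVal β P = 1 ↔ P = 0 := by
  constructor
  · intro h
    rcases P with _ | ⟨x, y, hP⟩
    · rfl
    · exfalso
      have m := nodVal_mul_some β hP
      rw [h, one_mul] at m
      have : 2 * β * x = 0 := by linear_combination m
      rcases mul_eq_zero.1 this with h' | h'
      · rcases mul_eq_zero.1 h' with h'' | h''
        · exact h2 h''
        · exact hβ h''
      · exact nodal_x_ne_zero hP h'
  · rintro rfl
    rfl

omit [DecidableEq k] in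
/-- `x (1 - u)² = 4 β² u` for `u = f(x, y)`. -/
lemma nodVal_x_rel (β : k) {x y : k} (h : (nodal (β ^ 2)).toAffine.Nonsingular x y) :
    x * (1 - nodVal β (.some x y h)) ^ 2 = 4 * β ^ 2 * nodVal β (.some x y h) := by
  have a := nodal_add_ne_zero h
  have m := nodVal_mul_some β h
  have e := nodal_factor β x y h.1
  have h2 : (y + β * x) ^ 2 ≠ 0 := pow_ne_zero 2 a
  apply mul_right_cancel₀ h2
  set u := nodVal β (.some x y h) with hu
  have e1 : (1 - u) * (y + β * x) = 2 * β * x := by linear_combination -m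
  calc x * (1 - u) ^ 2 * (y + β * x) ^ 2 = x * ((1 - u) * (y + β * x)) ^ 2 := by ring
    _ = 4 * β ^ 2 * x ^ 3 := by rw [e1]; ring
    _ = 4 * β ^ 2 * ((y - β * x) * (y + β * x)) := by rw [e]
    _ = 4 * β ^ 2 * u * (y + β * x) ^ 2 := by rw [← m]; ring

/-- **T6-NOD**. -/
theorem stmt_NOD : Stmt_NOD := by
  intro k _ _ β _ _
  refine ⟨nodHom β, fun x y h => ?_⟩
  rw [nodHom_val]
  exact nodVal_mul_some β h

end Fermat.Agent.Tate.T6.H97
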