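/-
Tate T6, package DP (helper97): in characteristic `p ≠ 2`, the `p`-th division polynomial of the
nodal cubic `y² = x³ + a x²` (`a ≠ 0`) is `c · X ^ ((p² - p)/2)` with `c ≠ 0`.

Route: over the algebraic closure `a = β²`, and `nodVal β : Ẽ_ns → Kˣ` is an injective
homomorphism with `x (1 - u)² = 4 β² u`.  Hence there is no `p`-torsion (so the only root of
`preΨ'_p` is `0`, by `Lib/TorsionGen`), and `x(pP) = x(P)^p / (4β²)^(p-1)`, which by the
multiplication formula gives `X^p · ΨSq_p = (4β²)^(p-1) · Φ_p`, whence the degree.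
-/
import Fermat.Agent.Tate.T6.H97_NOD
import Fermat.Agent.Lib.TorsionGen.MulFormula

set_option autoImplicit false

namespace Fermat.Agent.Tate.T6.H97

open WeierstrassCurve WeierstrassCurve.Affine Polynomial
open Fermat.Agent.Lib.TorsionGen

section general

variable {K : Type*} [Field K]

/-- A nonzero polynomial over an algebraically closed field whose only root is `0` is a
monomial. -/
lemma eq_C_mul_X_pow_of_roots [IsAlgClosed K] {g : K[X]} (hg : g ≠ 0)
    (hroot : ∀ x, g.eval x = 0 → x = 0) : g = C g.leadingCoeff * X ^ g.natDegree := by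
  have hs := IsAlgClosed.splits g
  have h1 := hs.eq_prod_roots
  have hr : g.roots = Multiset.replicate g.natDegree 0 := by
    rw [Multiset.eq_replicate]
    exact ⟨splits_iff_card_roots.1 hs, fun x hx => hroot x ((mem_roots hg).1 hx)⟩
  rw [hr, Multiset.map_replicate, Multiset.prod_replicate] at h1
  simpa using h1

variable [DecidableEq K]

lemma nodVal_nsmul (β : K) (n : ℕ) (P : (nodal (β ^ 2)).toAffine.Point) :
    nodVal β (n • P) = nodVal β P ^ n := by
  induction n with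
  | zero => rw [zero_smul, pow_zero, nodVal_zero]
  | succ n ih => rw [succ_nsmul, nodVal_add, ih, pow_succ]

variable (p : ℕ) [Fact p.Prime] [CharP K p]

/-- No `p`-torsion on the nonsingular locus of the nodal cubic in characteristic `p`. -/
lemma nodal_no_p_torsion {β : K} (hβ : β ≠ 0) (h2 : (2 : K) ≠ 0)
    (P : (nodal (β ^ 2)).toAffine.Point) (hP : p • P = 0) : P = 0 := by
  have h := nodVal_nsmul β p P
  rw [hP, nodVal_zero] at h
  have hu : nodVal β P = 1 := by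
    apply frobenius_inj K p
    rw [frobenius_def, ← h, map_one]
  exact (nodVal_eq_one_iff hβ h2 P).1 hu

/-- The only root of `preΨ'_p` is `0`. -/
lemma nodal_root_eq_zero [IsAlgClosed K] {β : K} (hβ : β ≠ 0) (h2 : (2 : K) ≠ 0)
    (hp : ¬ Even p) {x₀ : K} (hx : ((nodal (β ^ 2)).preΨ' p).eval x₀ = 0) : x₀ = 0 := by
  by_contra hx0
  obtain ⟨y₀, hy⟩ := IsAlgClosed.exists_pow_nat_eq (x₀ ^ 3 + β ^ 2 * x₀ ^ 2) (n := 2)
    (by norm_num)
  have hns := nodal_nonsingular_of_x_ne_zero h2 hy hx0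
  have h1 : p • Point.some x₀ y₀ hns = 0 :=
    (nsmul_eq_zero_iff_eval_preΨ' (W := (nodal (β ^ 2)).toAffine) hns hp).2 hx
  have h3 := nodal_no_p_torsion p hβ h2 _ h1
  exact Point.some_ne_zero _ h3

/-- The multiplication-by-`p` formula on the nodal cubic, as a polynomial identity. -/
lemma nodal_mul_formula [IsAlgClosed K] {β : K} (hβ : β ≠ 0) (h2 : (2 : K) ≠ 0) :
    X ^ p * (nodal (β ^ 2)).ΨSq (p : ℤ) =
      C ((4 * β ^ 2) ^ (p - 1)) * (nodal (β ^ 2)).Φ (p : ℤ) := by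
  have hp : p.Prime := Fact.out
  apply eq_of_infinite_eval_eq
  -- the finite exceptional set
  set S : Set K := {u | ∃ k, 1 ≤ k ∧ k ≤ p ∧ u ^ k = 1} with hS
  have hSfin : S.Finite := by
    have hsub : S ⊆ ⋃ k ∈ Finset.Icc 1 p, {u : K | (X ^ k - C 1 : K[X]).IsRoot u} := by
      rintro u ⟨k, hk1, hkp, hu⟩
      simp only [Set.mem_iUnion, Set.mem_ofPred_eq, Finset.mem_Icc, exists_prop]
      refine ⟨k, ⟨hk1, hkp⟩, ?_⟩
      simp [hu]
    refine Set.Finite.subset ?_ hsub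
    refine Set.Finite.biUnion (Finset.finite_toSet _) (fun k hk => ?_)
    have hk1 : 0 < k := by
      have := (Finset.mem_Icc.1 hk).1
      omega
    exact finite_setOfPred_isRoot (X_pow_sub_C_ne_zero hk1 (1 : K))
  set F : Set K := {0} ∪ (fun u => 4 * β ^ 2 * u / (1 - u) ^ 2) '' S with hF
  have hFfin : F.Finite := (Set.finite_singleton 0).union (hSfin.image _)
  refine hFfin.infinite_compl.mono (fun x hx => ?_)
  rw [hF, Set.mem_compl_iff, Set.mem_union, not_or] at hx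
  obtain ⟨hx0, hxS⟩ := hx
  have hx0 : x ≠ 0 := hx0
  obtain ⟨y, hy⟩ := IsAlgClosed.exists_pow_nat_eq (x ^ 3 + β ^ 2 * x ^ 2) (n := 2) (by norm_num)
  have hns := nodal_nonsingular_of_x_ne_zero h2 hy hx0
  set P : (nodal (β ^ 2)).toAffine.Point := Point.some x y hns with hPdef
  set u := nodVal β P with hu
  have hrel : x * (1 - u) ^ 2 = 4 * β ^ 2 * u := nodVal_x_rel β hns
  have hu1 : u ≠ 1 := fun h => Point.some_ne_zero hns ((nodVal_eq_one_iff hβ h2 P).1 h)
  have h1u : (1 - u) ≠ 0 := sub_ne_zero.2 (Ne.symm hu1)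
  have hxu : 4 * β ^ 2 * u / (1 - u) ^ 2 = x := by
    rw [div_eq_iff (pow_ne_zero 2 h1u)]
    exact hrel.symm
  have huS : u ∉ S := fun h => hxS ⟨u, h, hxu⟩
  have hL : ∀ k, 1 ≤ k → k ≤ p → k • P ≠ 0 := by
    intro k hk1 hkp h0
    apply huS
    refine ⟨k, hk1, hkp, ?_⟩
    rw [hu, ← nodVal_nsmul, h0, nodVal_zero]
  have hform := xc_nsmul_mul_eval_ΨSq (W := (nodal (β ^ 2)).toAffine) hns hp.one_le hL
  have hpP := hL p hp.one_le le_rfl
  have hval : nodVal β (p • P) = u ^ p := nodVal_nsmul β p P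
  rw [← hPdef] at hform
  rcases hQ : p • P with _ | ⟨x', y', h'⟩
  · exact absurd hQ hpP
  rw [hQ] at hform hval
  rw [Fermat.Agent.Lib.Torsion.H11.xc_some] at hform
  have hrel' : x' * (1 - u ^ p) ^ 2 = 4 * β ^ 2 * u ^ p := by
    have := nodVal_x_rel β h'
    rwa [hval] at this
  have hfrob : (1 - u) ^ p = 1 - u ^ p := by
    rw [sub_pow_char, one_pow]
  have hup : (1 - u ^ p) ≠ 0 := by
    rw [← hfrob]; exact pow_ne_zero p h1u
  have hpow : (4 * β ^ 2) ^ p = (4 * β ^ 2) ^ (p - 1) * (4 * β ^ 2) := by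
    rw [← pow_succ]
    congr 1
    have := hp.one_le
    omega
  have key : x ^ p = (4 * β ^ 2) ^ (p - 1) * x' := by
    apply mul_right_cancel₀ (pow_ne_zero 2 hup)
    have e1 : ((1 - u) ^ p) ^ 2 = ((1 - u) ^ 2) ^ p := by
      rw [← pow_mul, ← pow_mul, mul_comm]
    calc x ^ p * (1 - u ^ p) ^ 2 = (x * (1 - u) ^ 2) ^ p := by
          rw [← hfrob, mul_pow, e1]
      _ = (4 * β ^ 2) ^ p * u ^ p := by rw [hrel, mul_pow]
      _ = (4 * β ^ 2) ^ (p - 1) * (4 * β ^ 2 * u ^ p) := by rw [hpow]; ring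
      _ = (4 * β ^ 2) ^ (p - 1) * x' * (1 - u ^ p) ^ 2 := by rw [← hrel']; ring
  show eval x (X ^ p * (nodal (β ^ 2)).ΨSq (p : ℤ)) =
    eval x (C ((4 * β ^ 2) ^ (p - 1)) * (nodal (β ^ 2)).Φ (p : ℤ))
  rw [eval_mul, eval_pow, eval_X, eval_mul, eval_C, ← hform, key]
  ring

/-- The degree of `preΨ'_p` on the nodal cubic in characteristic `p`. -/
lemma nodal_natDegree_preΨ' [IsAlgClosed K] {β : K} (hβ : β ≠ 0) (h2 : (2 : K) ≠ 0)
    (hp : ¬ Even p) :
    (nodal (β ^ 2)).preΨ' p ≠ 0 ∧ 2 * ((nodal (β ^ 2)).preΨ' p).natDegree + p = p ^ 2 := by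
  have hC := nodal_mul_formula p hβ h2
  rw [ΨSq_ofNat, if_neg hp, mul_one] at hC
  have hc : (4 * β ^ 2) ^ (p - 1) ≠ 0 := by
    apply pow_ne_zero
    have h4 : (4 : K) ≠ 0 := by
      have : (4 : K) = 2 * 2 := by norm_num
      rw [this]; exact mul_ne_zero h2 h2
    exact mul_ne_zero h4 (pow_ne_zero 2 hβ)
  have hΦ : (C ((4 * β ^ 2) ^ (p - 1)) * (nodal (β ^ 2)).Φ (p : ℤ)).natDegree = p ^ 2 := by
    rw [natDegree_C_mul hc, natDegree_Φ, Int.natAbs_natCast]
  have hne : (nodal (β ^ 2)).preΨ' p ≠ 0 := by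
    intro h0
    rw [h0] at hC
    have h0' : C ((4 * β ^ 2) ^ (p - 1)) * (nodal (β ^ 2)).Φ (p : ℤ) = 0 := by
      rw [← hC]; simp
    rcases mul_eq_zero.1 h0' with h | h
    · exact hc (C_eq_zero.1 h)
    · exact Φ_ne_zero _ _ h
  refine ⟨hne, ?_⟩
  have h := congrArg natDegree hC
  rw [hΦ, natDegree_mul (pow_ne_zero _ X_ne_zero) (pow_ne_zero _ hne), natDegree_X_pow,
    natDegree_pow] at h
  omega

/-- **DP** over an algebraically closed field, with `a = β²`. -/
lemma nodal_preΨ'_eq [IsAlgClosed K] {β : K} (hβ : β ≠ 0) (h2 : (2 : K) ≠ 0) (hp : ¬ Even p) :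
    ∃ c : K, c ≠ 0 ∧ (nodal (β ^ 2)).preΨ' p = C c * X ^ ((p ^ 2 - p) / 2) := by
  obtain ⟨hne, hdeg⟩ := nodal_natDegree_preΨ' p hβ h2 hp
  have h := eq_C_mul_X_pow_of_roots hne (fun x hx => nodal_root_eq_zero p hβ h2 hp hx)
  have hd : ((nodal (β ^ 2)).preΨ' p).natDegree = (p ^ 2 - p) / 2 := by omega
  refine ⟨((nodal (β ^ 2)).preΨ' p).leadingCoeff, leadingCoeff_ne_zero.2 hne, ?_⟩
  rw [← hd]
  exact h

end general

lemma nodal_map {k K : Type*} [CommRing k] [CommRing K] (φ : k →+* K) (a : k) :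
    (nodal a).map φ = nodal (φ a) := by
  ext <;> simp [nodal]

/-- **T6-DP**. -/
theorem stmt_DP : Stmt_DP := by
  intro k _ p _ _ hp2 a ha
  classical
  have hp : p.Prime := Fact.out
  have hodd : ¬ Even p := by
    intro h
    exact hp2 ((Nat.Prime.even_iff hp).1 h)
  let φ : k →+* AlgebraicClosure k := algebraMap k (AlgebraicClosure k)
  have hφ : Function.Injective φ := (algebraMap k (AlgebraicClosure k)).injective
  have hchar : CharP (AlgebraicClosure k) p := charP_of_injective_ringHom hφ p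
  have h2 : (2 : AlgebraicClosure k) ≠ 0 := by
    intro h
    have h' : ((2 : ℕ) : AlgebraicClosure k) = 0 := by exact_mod_cast h
    have hdvd : p ∣ 2 := (CharP.cast_eq_zero_iff (AlgebraicClosure k) p 2).1 h'
    exact hp2 ((Nat.prime_dvd_prime_iff_eq hp Nat.prime_two).1 hdvd)
  obtain ⟨β, hβ⟩ := IsAlgClosed.exists_pow_nat_eq (φ a) (n := 2) (by norm_num)
  have hβ0 : β ≠ 0 := by
    rintro rfl
    have : φ a = 0 := by rw [← hβ]; ring
    exact ha ((map_eq_zero φ).1 this)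
  obtain ⟨c, hc, hcX⟩ := nodal_preΨ'_eq p hβ0 h2 hodd
  have hmap : ((nodal a).preΨ' p).map φ = C c * X ^ ((p ^ 2 - p) / 2) := by
    rw [← map_preΨ', nodal_map, ← hβ]
    exact hcX
  set g := (nodal a).preΨ' p with hg
  set m := (p ^ 2 - p) / 2 with hm
  have hcoeff : φ (g.coeff m) = c := by
    rw [← coeff_map, hmap]
    simp
  refine ⟨g.coeff m, ?_, ?_⟩
  · intro h0
    rw [h0, map_zero] at hcoeff
    exact hc hcoeff.symm
  · apply Polynomial.map_injective φ hφ
    rw [hmap, Polynomial.map_mul, Polynomial.map_pow, map_X, map_C, hcoeff]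

end Fermat.Agent.Tate.T6.H97
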