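/-
Tate T6, package ROOT (helper97): on the S05 model `y² = x³ + a x² + b x` (`|a| = 1`, `|b| < 1`)
over an algebraically closed valued field of characteristic `0` and odd residue characteristic
`p` there is a point of order `p` with `|x| < 1`.

Route: the `p`-th division polynomial `g` of the model has coefficients in `A`, and modulo the
maximal ideal it is the division polynomial of the nodal cubic, i.e. `c̄ X ^ ((p² - p)/2)` with
`c̄ ≠ 0` (T6-DP).  So `|g₀| < 1` and some coefficient is a unit; if all roots had `|ξ| ≥ 1`, the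
constant coefficient would dominate all others.
-/
import Fermat.Agent.Tate.T6.Defs2
import Fermat.Agent.Tate.T6.H97_DP
import Fermat.Agent.Lib.EllFinite.H4_Red

set_option autoImplicit false

namespace Fermat.Agent.Tate.T6.H97

open WeierstrassCurve WeierstrassCurve.Affine Polynomial IsLocalRing
open Fermat.Agent.S05 (ModelHyp)
open Fermat.Agent.Lib.TorsionGen
open Fermat.Agent.Lib.EllFinite

section valpoly

variable {L : Type*} [Field L] (A : ValuationSubring L)

/-- A product of linear factors `X - ξ` with `1 ≤ |ξ|`: the constant coefficient dominates. -/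
lemma coeff_prod_le (s : Multiset L) (hs : ∀ ξ ∈ s, 1 ≤ A.valuation ξ) (i : ℕ) :
    A.valuation ((s.map (fun ξ => X - C ξ)).prod.coeff i) ≤
      A.valuation ((s.map (fun ξ => X - C ξ)).prod.coeff 0) := by
  induction s using Multiset.induction_on generalizing i with
  | empty =>
    rw [Multiset.map_zero, Multiset.prod_zero]
    by_cases hi : i = 0
    · rw [hi]
    · rw [coeff_one, if_neg hi, map_zero]
      exact zero_le
  | cons ξ t ih =>
    rw [Multiset.map_cons, Multiset.prod_cons]
    have hξ : 1 ≤ A.valuation ξ := hs ξ (Multiset.mem_cons_self ξ t)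
    have iht : ∀ j, A.valuation ((t.map (fun ξ => X - C ξ)).prod.coeff j) ≤
        A.valuation ((t.map (fun ξ => X - C ξ)).prod.coeff 0) :=
      fun j => ih (fun η hη => hs η (Multiset.mem_cons_of_mem hη)) j
    set P := (t.map (fun ξ => X - C ξ)).prod with hP
    have h0 : ((X - C ξ) * P).coeff 0 = -ξ * P.coeff 0 := by
      rw [mul_coeff_zero, coeff_sub, coeff_X_zero, coeff_C_zero, zero_sub]
    have hv0 : A.valuation (((X - C ξ) * P).coeff 0) = A.valuation ξ * A.valuation (P.coeff 0) := by
      rw [h0, map_mul, Valuation.map_neg]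
    rw [hv0]
    have hle : A.valuation (P.coeff 0) ≤ A.valuation ξ * A.valuation (P.coeff 0) := by
      calc A.valuation (P.coeff 0) = 1 * A.valuation (P.coeff 0) := (one_mul _).symm
        _ ≤ A.valuation ξ * A.valuation (P.coeff 0) := mul_le_mul' hξ le_rfl
    cases i with
    | zero => rw [hv0]
    | succ j =>
      have hj : ((X - C ξ) * P).coeff (j + 1) = P.coeff j - ξ * P.coeff (j + 1) := by
        rw [sub_mul, coeff_sub, coeff_X_mul, coeff_C_mul]
      rw [hj]
      refine (Valuation.map_sub _ _ _).trans (max_le ((iht j).trans hle) ?_)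
      rw [map_mul]
      exact mul_le_mul' le_rfl (iht (j + 1))

/-- A split polynomial all of whose roots have `1 ≤ |ξ|`: the constant coefficient dominates. -/
lemma coeff_le_coeff_zero_of_roots [IsAlgClosed L] (g : L[X])
    (hs : ∀ ξ ∈ g.roots, 1 ≤ A.valuation ξ) (i : ℕ) :
    A.valuation (g.coeff i) ≤ A.valuation (g.coeff 0) := by
  have hprod := (IsAlgClosed.splits g).eq_prod_roots
  have key := coeff_prod_le A g.roots hs i
  have e : ∀ j, g.coeff j =
      g.leadingCoeff * ((g.roots.map (fun ξ => X - C ξ)).prod).coeff j := by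
    intro j
    conv_lhs => rw [hprod]
    rw [coeff_C_mul]
  rw [e i, e 0, map_mul, map_mul]
  exact mul_le_mul' le_rfl key

end valpoly

/-- **T6-ROOT**. -/
theorem stmt_ROOT : Stmt_ROOT := by
  intro L _ _ _ _ A p hp hp2 hpv W hW hb hΔ
  classical
  have hfact : Fact p.Prime := ⟨hp⟩
  have hodd : ¬ Even p := fun h => hp2 ((Nat.Prime.even_iff hp).1 h)
  -- `|a| = 1`
  have h4 : A.valuation (4 : L) ≤ 1 := by
    have : (4 : L) = 2 * 2 := by norm_num
    rw [this, map_mul, hW.two, one_mul]
  have h4b : A.valuation (4 * W.a₄) < 1 := by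
    rw [map_mul]
    calc A.valuation (4 : L) * A.valuation W.a₄ ≤ 1 * A.valuation W.a₄ := mul_le_mul' h4 le_rfl
      _ = A.valuation W.a₄ := one_mul _
      _ < 1 := hb
  have hasq : A.valuation (W.a₂ ^ 2) = 1 := by
    have e : W.a₂ ^ 2 = (W.a₂ ^ 2 - 4 * W.a₄) + 4 * W.a₄ := by ring
    rw [e, Valuation.map_add_eq_of_lt_left _ (by rw [hW.disc]; exact h4b), hW.disc]
  have hav : A.valuation W.a₂ = 1 := by
    refine le_antisymm hW.a_le ?_
    have h1 : A.valuation (W.a₂ ^ 2) ≤ A.valuation W.a₂ := by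
      rw [pow_two, map_mul]
      calc A.valuation W.a₂ * A.valuation W.a₂ ≤ 1 * A.valuation W.a₂ :=
            mul_le_mul' hW.a_le le_rfl
        _ = A.valuation W.a₂ := one_mul _
    rw [hasq] at h1
    exact h1
  -- the model over `A`
  let aA : A := ⟨W.a₂, (A.valuation_le_one_iff _).1 hW.a_le⟩
  let bA : A := ⟨W.a₄, (A.valuation_le_one_iff _).1 hW.b_le⟩
  let WA : WeierstrassCurve A := ⟨0, aA, 0, bA, 0⟩
  have hWA : WA.map (algebraMap A L) = W := by
    ext
    · show algebraMap A L 0 = W.a₁
      rw [map_zero, hW.a₁]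
    · rfl
    · show algebraMap A L 0 = W.a₃
      rw [map_zero, hW.a₃]
    · rfl
    · show algebraMap A L 0 = W.a₆
      rw [map_zero, hW.a₆]
  have hres_b : residue A bA = 0 := (H4.res_eq_zero_iff bA).2 hb
  have hres_a : residue A aA ≠ 0 := (H4.res_ne_zero_iff aA).2 hav
  have hWk : WA.map (residue A) = nodal (residue A aA) := by
    ext
    · show residue A 0 = 0
      rw [map_zero]
    · rfl
    · show residue A 0 = 0
      rw [map_zero]
    · exact hres_b
    · show residue A 0 = 0
      rw [map_zero]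
  -- the residue field has characteristic `p`
  have hp0 : ((p : ℕ) : ResidueField A) = 0 := by
    have h1 : residue A ((p : ℕ) : A) = 0 := by
      apply (H4.res_eq_zero_iff _).2
      simpa using hpv
    simpa using h1
  have hchar : CharP (ResidueField A) p := (CharP.charP_iff_prime_eq_zero hp).2 hp0
  obtain ⟨c, hc, hDP⟩ := stmt_DP (ResidueField A) p hp2 (residue A aA) hres_a
  set d₀ := (p ^ 2 - p) / 2 with hd₀
  have hd₀1 : 1 ≤ d₀ := by
    have h3 : 3 ≤ p := by
      have := hp.two_le
      omega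
    have h6 : 6 ≤ p ^ 2 - p := by
      have : p ^ 2 = p * p := by ring
      have h9 : 3 * p ≤ p * p := Nat.mul_le_mul_right p h3
      omega
    omega
  set g₀ := WA.preΨ' p with hg₀
  have hg₀k : g₀.map (residue A) = C c * X ^ d₀ := by
    rw [hg₀, ← map_preΨ', hWk, hDP]
  have hgL : g₀.map (algebraMap A L) = W.preΨ' p := by
    rw [hg₀, ← map_preΨ', hWA]
  have hcoeff_d : A.valuation ((W.preΨ' p).coeff d₀) = 1 := by
    rw [← hgL, coeff_map]
    apply (H4.res_ne_zero_iff _).1
    rw [← coeff_map, hg₀k, coeff_C_mul, coeff_X_pow, if_pos rfl, mul_one]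
    exact hc
  have hcoeff_0 : A.valuation ((W.preΨ' p).coeff 0) < 1 := by
    rw [← hgL, coeff_map]
    apply (H4.res_eq_zero_iff _).1
    rw [← coeff_map, hg₀k, coeff_C_mul, coeff_X_pow, if_neg (by omega), mul_zero]
  -- a small root
  obtain ⟨ξ, hξ, hξv⟩ : ∃ ξ ∈ (W.preΨ' p).roots, A.valuation ξ < 1 := by
    by_contra hcon
    have hall : ∀ ξ ∈ (W.preΨ' p).roots, 1 ≤ A.valuation ξ :=
      fun ξ hξ => not_lt.1 (fun h => hcon ⟨ξ, hξ, h⟩)
    have key := coeff_le_coeff_zero_of_roots A (W.preΨ' p) hall d₀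
    rw [hcoeff_d] at key
    exact absurd key (not_le.2 hcoeff_0)
  have hroot : (W.preΨ' p).eval ξ = 0 := (mem_roots'.1 hξ).2
  obtain ⟨y, hy⟩ := IsAlgClosed.exists_pow_nat_eq (ξ ^ 3 + W.a₂ * ξ ^ 2 + W.a₄ * ξ) (n := 2)
    (by norm_num)
  have heq : W.Equation ξ y :=
    (Fermat.Agent.S05.legendre_equation_iff hW.a₁ hW.a₃ hW.a₆ ξ y).2 hy
  have hns : W.Nonsingular ξ y := (equation_iff_nonsingular_of_Δ_ne_zero hΔ).1 heq
  exact ⟨ξ, y, hns, (nsmul_eq_zero_iff_eval_preΨ' hns hodd).2 hroot, hξv⟩

end Fermat.Agent.Tate.T6.H97
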