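/-
Stmt_Tate part T6, package LOC (helper14): the local theorem `Stmt_LOC` from COMP (Comp.lean),
CG (helper1), ROOT (helper97) and helper5's transfer to the S05 model.
-/
import Fermat.Agent.Tate.T6.Comp
import Fermat.Agent.Tate.T6.H01_CG
import Fermat.Agent.Tate.T6.H97_Root

set_option autoImplicit false

open WeierstrassCurve WeierstrassCurve.Affine

namespace Fermat.Agent.Tate.T6

open Fermat.Agent.S05 Fermat.Agent.S52.H5 Fermat.Agent.Lib.PointVariableChange
open Fermat.Agent.Lib.EllFinite.H4 (IntCoeff)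

section aux

variable {L : Type*} [Field L] {A : ValuationSubring L}

lemma val_natCast_le_one (m : ℕ) : A.valuation (m : L) ≤ 1 :=
  (A.valuation_le_one_iff _).2 (natCast_mem A m)

/-- Odd residue characteristic: `2` is a unit. -/
lemma val_two_eq_one_of_odd {p : ℕ} (hp : p.Prime) (hp2 : p ≠ 2)
    (hpv : A.valuation (p : L) < 1) : A.valuation (2 : L) = 1 := by
  have h2le : A.valuation (2 : L) ≤ 1 := by
    have := val_natCast_le_one (A := A) (L := L) 2
    exact_mod_cast this
  rcases h2le.lt_or_eq with hlt | heq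
  · exfalso
    obtain ⟨m, hm⟩ := hp.odd_of_ne_two hp2
    have e : (1 : L) = (p : L) - 2 * (m : L) := by rw [hm]; push_cast; ring
    have h1 : A.valuation (1 : L) < 1 := by
      rw [e]
      apply Valuation.map_sub_lt _ hpv
      rw [map_mul]
      calc A.valuation (2 : L) * A.valuation (m : L) ≤ A.valuation (2 : L) * 1 := by
            gcongr; exact val_natCast_le_one m
        _ = A.valuation (2 : L) := mul_one _
        _ < 1 := hlt
    rw [map_one] at h1
    exact lt_irrefl _ h1
  · exact heq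

lemma val_three_le_one : A.valuation (3 : L) ≤ 1 := by
  have := val_natCast_le_one (A := A) (L := L) 3
  exact_mod_cast this

end aux

/-- The units of the value group are torsion free. -/
lemma valueGroup_units_torsionFree {L : Type*} [Field L] (A : ValuationSubring L)
    (g : (A.ValueGroup)ˣ) (n : ℕ) (hn : 0 < n) (h : g ^ n = 1) : g = 1 := by
  have h' : ((g : A.ValueGroup)) ^ n = 1 := by
    rw [← Units.val_pow_eq_pow_val, h, Units.val_one]
  have : (g : A.ValueGroup) = 1 := (pow_eq_one_iff_of_nonneg zero_le hn.ne').1 h'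
  exact Units.ext this

/-- **LOC** from CG and ROOT. -/
theorem stmt_LOC_of (hCG : Stmt_CG) (hROOT : Stmt_ROOT) : Stmt_LOC := by
  intro L _ _ _ _ A p hp hp2 hpv E hE hΔ0 hΔ hc₄
  have h2 : A.valuation (2 : L) = 1 := val_two_eq_one_of_odd hp hp2 hpv
  have h20 : (2 : L) ≠ 0 := two_ne_zero_of_val h2
  have h4 : A.valuation (4 : L) = 1 := val_four_of_two h2
  obtain ⟨e, he, hev, hyp, hb, hV, hI⟩ := exists_model_odd_val hE h2 hΔ0 hΔ hc₄
  obtain ⟨β, hβ⟩ : ∃ β : L, β ^ 2 = (vcOdd E e • E).toAffine.a₂ :=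
    IsAlgClosed.exists_pow_nat_eq _ (by norm_num)
  have htr : A.valuation (trB4 E e) < 1 := by
    have h := hb
    rw [show (vcOdd E e • E).toAffine.a₄ = trB4 E e / 2 from vcOdd_a₄ E e h20, map_div₀, h2,
      div_one] at h
    exact h
  let φ : (vcOdd E e • E).toAffine.Point →+ Additive (CompGroup hyp) :=
    AddMonoidHom.mk' (M1.compMap hyp β) (M1.compMap_add hyp H6.M1_E0E0 H6.M1_E0Cp hb hβ)
  have hφ : ∀ Q, φ Q = M1.compMap hyp β Q := fun _ => rfl
  let c : E.Point →+ Additive (CompGroup hyp) :=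
    φ.comp (equiv E (vcOdd E e)).symm.toAddMonoidHom
  have hc : ∀ P, c P = M1.compMap hyp β ((equiv E (vcOdd E e)).symm P) := fun _ => rfl
  have hconj : ∀ (sE : E.Point →+ E.Point) (P : E.Point),
      (equiv E (vcOdd E e)).symm (sE P) =
        conjVC E (vcOdd E e) sE ((equiv E (vcOdd E e)).symm P) := by
    intro sE P
    simp [conjVC]
  refine ⟨Additive (CompGroup hyp), inferInstance, c, ?_, ?_, ?_, ?_⟩
  · -- (a) a point of order `p` outside the kernel
    have hΔW : (vcOdd E e • E).toAffine.Δ ≠ 0 := by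
      rw [show (vcOdd E e • E).toAffine.Δ = ((vcOdd E e).u⁻¹ : Lˣ) ^ 12 * E.Δ from
        variableChange_Δ E (vcOdd E e)]
      simpa [vcOdd] using hΔ0
    obtain ⟨x, y, h, hp0, hx⟩ := hROOT L A p hp hp2 hpv (vcOdd E e • E).toAffine hyp hb hΔW
    refine ⟨equiv E (vcOdd E e) (.some x y h), ?_, ?_⟩
    · rw [← map_nsmul, hp0, map_zero]
    · rw [hc, AddEquiv.symm_apply_apply]
      intro h0
      have h1 : InE0 A (Point.some x y h) := (M1.compMap_eq_zero_iff hyp hb _).1 h0
      exact absurd hx (not_lt.2 h1)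
  · -- (b) local cyclicity
    intro k Q₁ Q₂ h1 h2' hne
    have e1 : p ^ (k + 1) • c Q₁ = 0 := by rw [← map_nsmul, h1, map_zero]
    have e2 : p ^ (k + 1) • c Q₂ = 0 := by rw [← map_nsmul, h2', map_zero]
    obtain ⟨j, hj⟩ := hCG ((A.ValueGroup)ˣ) (valueGroup_units_torsionFree A) (bUnit hyp ^ 2) p hp k
      (Additive.toMul (c Q₁)) (Additive.toMul (c Q₂))
      (by rw [← toMul_nsmul, e1]; rfl) (by rw [← toMul_nsmul, e2]; rfl)
      (fun h => hne (by
        apply Additive.toMul.injective
        rw [toMul_nsmul, h]; rfl))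
    refine ⟨j, ?_⟩
    apply Additive.toMul.injective
    rw [toMul_nsmul]
    exact hj
  · -- (c) decomposition-like maps act by a sign
    intro σ sE hD
    have hVal : ValOn A E σ sE := ⟨hD.val_eq, hD.map_some⟩
    have hS := hV σ sE hVal hD.fix₁ hD.fix₂ hD.fix₃ hD.fix₄ hD.fix₆
    have hshift : A.valuation (σ e - e) ≤ A.valuation (trB4 E e) :=
      val_shift_root_odd_of_val h2 hc₄ he htr σ hD.val_eq hD.fix₁ hD.fix₂ hD.fix₃ hD.fix₄ hD.fix₆
    have hσa : A.valuation (σ (vcOdd E e • E).toAffine.a₂ - (vcOdd E e • E).toAffine.a₂) < 1 := by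
      rw [show (vcOdd E e • E).toAffine.a₂ = trB2 E e / 4 from vcOdd_a₂ E e h20]
      have e3 : σ (trB2 E e / 4) - trB2 E e / 4 = 3 * (σ e - e) := by
        have h40 : (4 : L) ≠ 0 := four_ne_zero_of_two h20
        simp only [trB2, b₂, map_div₀, map_add, map_mul, map_pow, hD.fix₁, hD.fix₂, map_ofNat]
        field_simp
        ring
      rw [e3, map_mul]
      calc A.valuation (3 : L) * A.valuation (σ e - e) ≤ 1 * A.valuation (σ e - e) := by
            gcongr; exact val_three_le_one
        _ = A.valuation (σ e - e) := one_mul _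
        _ ≤ A.valuation (trB4 E e) := hshift
        _ < 1 := htr
    rcases compMap_shiftVal_sign A _ hyp hb β hβ σ _ hS hσa with h | h
    · left
      intro P
      rw [hc, hc, hconj, h]
    · right
      intro P
      rw [hc, hc, hconj, h]
  · -- (d) inertia-like maps act trivially
    intro σ sE hD hres P
    have hIn : InertiaOn A E σ sE := ⟨hD.val_eq, hres, hD.map_some⟩
    have hS := hI σ sE hIn hD.fix₁ hD.fix₂ hD.fix₃ hD.fix₄ hD.fix₆
    rw [hc, hc, hconj, compMap_shift A _ hyp hb β hβ σ _ hS]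

/-- **LOC** (unconditional). -/
theorem stmt_LOC : Stmt_LOC := stmt_LOC_of H01.stmt_CG H97.stmt_ROOT

end Fermat.Agent.Tate.T6
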