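/-
Stmt_Tate part T6 (helper14, with helper1, helper5, helper97): strictly ordinary at a bad prime
`p ≠ 2`, from T2 (determinant = cyclotomic character).
-/
import Fermat.Agent.Tate.T6.Loc
import Fermat.Agent.Tate.T6.H01_LIN
import Fermat.Agent.Tate.T6.H01_Asm

set_option autoImplicit false

namespace Fermat.Agent.Tate.T6

/-- **T6 from T2.** -/
theorem stmt_T6_of_T2 (hT2 : Fermat.Agent.Tate.Stmt_T2) : Fermat.Agent.Tate.Stmt_T6 :=
  H01.stmt_T6_of stmt_LOC H01.stmt_LIN hT2

end Fermat.Agent.Tate.T6
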